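import Fermat.Agent.LocalF.LocGal
import Fermat.Agent.CFT.Cor
import Fermat.Agent.CFT.GalInst

/-!
# `H²(G_K, ℤ/p)` is one-dimensional for a local field `K ∋ μ_p`

and the cup product pairing on characters is nondegenerate.
-/

set_option autoImplicit false

open Module Fermat.Agent.CFT

namespace Fermat.Agent.LocalF

section SymApply

variable {G : Type} [Group G] {p : ℕ} [Fact p.Prime] {𝓛 : Levels G}

lemma sym_apply (κ lam : Z1 𝓛 (triv p G)) : sym 𝓛 p κ lam = H2.mk 𝓛 (triv p G)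
    ⟨cup κ lam, cup_mem_Z2 κ.2.1 lam.2.1 (Z1_map_mul κ) (Z1_map_mul lam)⟩ := rfl

end SymApply

section Dies

variable {G : Type} [Group G] {p : ℕ}

/-- the 2-cochain `y` becomes a coboundary on `N` -/
def Dies (𝓛 : Levels G) (N : Subgroup G) (y : G → G → ZMod p) : Prop :=
  ∃ f : G → ZMod p, 𝓛.LC f ∧ ∀ a ∈ N, ∀ b ∈ N, y a b = f b - f (a * b) + f a

variable {𝓛 : Levels G}

lemma Dies.mono {N N' : Subgroup G} {y : G → G → ZMod p} (h : Dies 𝓛 N y) (hle : N' ≤ N) :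
    Dies 𝓛 N' y := by
  obtain ⟨f, hf, h⟩ := h
  exact ⟨f, hf, fun a ha b hb => h a (hle ha) b (hle hb)⟩

lemma Dies.restrict {N : Subgroup G} {y : G → G → ZMod p} (h : Dies 𝓛 N y) (H : Subgroup G) :
    Dies (𝓛.restrict H) (N.subgroupOf H) (fun a b : H => y a b) := by
  obtain ⟨f, hf, h⟩ := h
  exact ⟨fun a => f a, hf.precomp (Levels.cont_subtype H), fun a ha b hb => h a ha b hb⟩

lemma dies_top {y : G → G → ZMod p} (h : Dies 𝓛 (⊤ : Subgroup G) y) :
    y ∈ B2 𝓛 (triv p G) := by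
  obtain ⟨f, hf, h⟩ := h
  refine mem_B2.2 ⟨f, hf, ?_⟩
  ext a b
  rw [d1_triv, h a trivial b trivial]

lemma exists_dies {y : G → G → ZMod p} (hy : y ∈ Z2 𝓛 (triv p G)) :
    ∃ N ∈ 𝓛, N.Normal ∧ Dies 𝓛 N y := by
  obtain ⟨N, hN, hNn, hyN⟩ := hy.1.exists_normal
  refine ⟨N, hN, hNn, fun _ => y 1 1, Levels.LC.const _, fun a ha b hb => ?_⟩
  have h1 := hyN 1 1 a ha b hb
  rw [one_mul, one_mul] at h1
  rw [h1]; ring

lemma res_mem_Z2 {y : G → G → ZMod p} (hy : y ∈ Z2 𝓛 (triv p G)) (H : Subgroup G) :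
    (fun a b : H => y a b) ∈ Z2 (𝓛.restrict H) (triv p H) :=
  ⟨hy.1.precomp (Levels.cont_subtype H), fun a b c => hy.2 a b c⟩

lemma corData_triv {H : Subgroup G} (hH : H ∈ 𝓛) :
    CorData H.subtype (triv p G) (triv p H) 𝓛 (𝓛.restrict H) where
  inj := Subtype.val_injective
  range_mem := by rw [Subgroup.range_subtype]; exact hH
  cont := Levels.cont_subtype H
  cocont := fun _ ⟨H', hH', hJ⟩ => ⟨H', hH', hJ⟩
  rho _ _ := rfl

/-- restriction of a character -/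
def resZ1 (H : Subgroup G) (κ : Z1 𝓛 (triv p G)) : Z1 (𝓛.restrict H) (triv p H) :=
  ⟨fun a => (κ : G → ZMod p) a, κ.2.1.precomp (Levels.cont_subtype H), fun a b => κ.2.2 a b⟩

end Dies

section PGroup

variable {G : Type} [Group G] {p : ℕ} [Fact p.Prime] {𝓛 : Levels G}

/-- A group whose quotient by `N` is a nontrivial `p`-group has a character of order `p` trivial
on `N`. -/
lemma exists_char {N : Subgroup G} [N.Normal] {n : ℕ} (hN : N.index = p ^ (n + 1)) :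
    ∃ κ : G → ZMod p, (∀ g h, κ (g * h) = κ g + κ h) ∧ (∀ g ∈ N, κ g = 0) ∧ (∃ σ, κ σ = 1) := by
  have hp := (Fact.out : p.Prime)
  have hcard : Nat.card (G ⧸ N) = p ^ (n + 1) := hN
  have hfin : Finite (G ⧸ N) := Nat.finite_of_card_ne_zero (by
    rw [hcard]; exact pow_ne_zero _ hp.ne_zero)
  obtain ⟨H', hH'⟩ := Sylow.exists_subgroup_card_pow_prime (G := G ⧸ N) p (n := n)
    (by rw [hcard]; exact pow_dvd_pow p (Nat.le_succ n))
  have hidx : H'.index = p := by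
    have h1 := H'.card_mul_index
    rw [hH', hcard, pow_succ] at h1
    exact Nat.eq_of_mul_eq_mul_left (pow_pos hp.pos n) h1
  have hnorm : H'.Normal := by
    apply Subgroup.normal_of_index_eq_minFac_card
    rw [hidx, hcard, Nat.Prime.pow_minFac hp (Nat.succ_ne_zero n)]
  have hc : Nat.card ((G ⧸ N) ⧸ H') = p := hidx
  have hcyc : IsCyclic ((G ⧸ N) ⧸ H') := isCyclic_of_prime_card hc
  let e : ((G ⧸ N) ⧸ H') ≃* Multiplicative (ZMod p) :=
    mulEquivOfPrimeCardEq (p := p) hc (by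
      rw [Nat.card_congr Multiplicative.toAdd, Nat.card_zmod])
  let f : G →* Multiplicative (ZMod p) :=
    e.toMonoidHom.comp ((QuotientGroup.mk' H').comp (QuotientGroup.mk' N))
  have hf : Function.Surjective f := e.surjective.comp
    ((QuotientGroup.mk'_surjective H').comp (QuotientGroup.mk'_surjective N))
  refine ⟨fun g => (f g).toAdd, fun g h => by
    change (f (g * h)).toAdd = _
    rw [map_mul, toAdd_mul], fun g hg => ?_, ?_⟩
  · have h1 : (QuotientGroup.mk' N) g = 1 := (QuotientGroup.eq_one_iff g).2 hg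
    change (e ((QuotientGroup.mk' H') ((QuotientGroup.mk' N) g))).toAdd = 0
    rw [h1, map_one, map_one]; rfl
  · obtain ⟨σ, hσ⟩ := hf (Multiplicative.ofAdd 1)
    exact ⟨σ, by change (f σ).toAdd = 1; rw [hσ]; rfl⟩

end PGroup


section Tower

variable {l : ℕ} [Fact l.Prime] {Ω : Type} [Field Ω] [Algebra ℚ_[l] Ω] [IsGalois ℚ_[l] Ω]
variable {p : ℕ} [Fact p.Prime] {ζ : Ω}

lemma LocGal.finrank_range_sym {G : Type} [Group G] [MulSemiringAction G Ω] {𝓛 : Levels G}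
    (h : LocGal l 𝓛 Ω) (hζ : IsPrimitiveRoot ζ p) (hζG : ∀ g : G, g • ζ = ζ)
    (hdiv : ∀ w : Ω, w ≠ 0 → ∃ v : Ω, v ^ p = w) (κ : Z1 𝓛 (triv p G)) (hκ : κ ≠ 0) :
    finrank (ZMod p) (LinearMap.range (sym 𝓛 p κ)) = 1 := by
  obtain ⟨σ, hσ⟩ := exists_eq_one hκ
  exact Fermat.Agent.LocalF.finrank_range_sym hζ h.isGal hζG hdiv (mem_kerZ1 κ) hσ
    (h.norm_relIndex κ.2.1 (Z1_map_mul κ) (mem_kerZ1 κ) hσ)

lemma LocGal.common_line {G : Type} [Group G] [MulSemiringAction G Ω] {𝓛 : Levels G}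
    (h : LocGal l 𝓛 Ω) (hζ : IsPrimitiveRoot ζ p) (hζG : ∀ g : G, g • ζ = ζ)
    (hdiv : ∀ w : Ω, w ≠ 0 → ∃ v : Ω, v ^ p = w) {κ lam : Z1 𝓛 (triv p G)} (hκ : κ ≠ 0)
    (hlam : lam ≠ 0) : LinearMap.range (sym 𝓛 p κ) = LinearMap.range (sym 𝓛 p lam) :=
  exists_common_line (sym 𝓛 p) (fun x y => sym_skew x y)
    (fun x hx => h.finrank_range_sym hζ hζG hdiv x hx) hκ hlam

/-- elements of the kernel of `sym κ` are corestrictions from `ker κ` -/
lemma LocGal.exists_cor1_eq {G : Type} [Group G] [MulSemiringAction G Ω] {𝓛 : Levels G}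
    (h : LocGal l 𝓛 Ω) (hζ : IsPrimitiveRoot ζ p) (hζG : ∀ g : G, g • ζ = ζ)
    (hdiv : ∀ w : Ω, w ≠ 0 → ∃ v : Ω, v ^ p = w) {κ : Z1 𝓛 (triv p G)} {H : Subgroup G}
    (hκH : ∀ g, g ∈ H ↔ (κ : G → ZMod p) g = 0) {σ : G} (hσ : (κ : G → ZMod p) σ = 1)
    [Fintype (G ⧸ H.subtype.range)] {w : Z1 𝓛 (triv p G)} (hw : sym 𝓛 p κ w = 0) :
    ∃ z : Z1 (𝓛.restrict H) (triv p H),
      ∀ g, cor1 H.subtype (triv p G) (z : H → ZMod p) g = (w : G → ZMod p) g := by
  obtain ⟨t, ht⟩ := kumV_surjective (𝓛 := 𝓛) hζ h.isGal hζG hdiv (Multiplicative.ofAdd w)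
  have hw' : w = (kumV (𝓛 := 𝓛) hζ h.isGal hζG hdiv t).toAdd := by rw [ht]; rfl
  rw [hw', sym_kumV_eq_zero_iff hζ h.isGal hζG hdiv hκH hσ] at hw
  obtain ⟨a, ha, hat⟩ := hw
  have hr0 := rt_ne_zero hdiv a
  have hrfix : ∀ g : H, g • (rt hdiv a) ^ p = (rt hdiv a) ^ p := fun g => by
    rw [rt_pow]; exact ha g g.2
  refine ⟨⟨kummer p ζ (rt hdiv a), kummer_LC hζ (h.isGal.restrict H) hr0 (fun g => hζG g) hrfix,
    fun g g' => (kummer_map_mul hζ hr0 (hζG g) (hrfix g) (hrfix g')).trans (add_comm _ _)⟩,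
    fun g => ?_⟩
  have h1 := cor1_kummer (i := H.subtype) hζ hζG (fun g x => rfl) hr0 hrfix g
  refine h1.trans ?_
  rw [hw', kumV_apply hζ h.isGal hζG hdiv t (y := ∏ c : G ⧸ H.subtype.range, c.out • rt hdiv a)]
  have h2 : ∀ c : G ⧸ H.subtype.range, (c.out • rt hdiv a) ^ p = c.out • (a : Ω) := by
    intro c; rw [← smul_pow', rt_pow]
  rw [← Finset.prod_pow, Finset.prod_congr rfl fun c _ => h2 c]
  have hκH' : ∀ g, g ∈ H.subtype.range ↔ (κ : G → ZMod p) g = 0 := by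
    rw [Subgroup.range_subtype]; exact hκH
  rw [← prod_pow_smul_eq_prod_coset (Z1_map_mul κ) hκH' hσ (a := (a : Ω)) (by
    rw [Subgroup.range_subtype]; exact ha), ← coe_normHom, hat]

/-- **Tower induction**: a class which dies on a normal level of `p`-power index is a symbol. -/
theorem mem_line_of_dies (hζ : IsPrimitiveRoot ζ p) (hdiv : ∀ w : Ω, w ≠ 0 → ∃ v : Ω, v ^ p = w)
    (n : ℕ) : ∀ (G : Type) [Group G] [MulSemiringAction G Ω] (𝓛 : Levels G), LocGal l 𝓛 Ω →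
      (∀ g : G, g • ζ = ζ) → ∀ (N : Subgroup G), N ∈ 𝓛 → N.Normal → N.index = p ^ n →
      ∀ (y : Z2 𝓛 (triv p G)), Dies 𝓛 N (y : G → G → ZMod p) →
      ∀ κ : Z1 𝓛 (triv p G), κ ≠ 0 → H2.mk 𝓛 (triv p G) y ∈ LinearMap.range (sym 𝓛 p κ) := by
  induction n with
  | zero =>
    intro G _ _ 𝓛 h hζG N hN hNn hidx y hy κ hκ
    rw [pow_zero, Subgroup.index_eq_one] at hidx
    subst hidx
    have : H2.mk 𝓛 (triv p G) y = 0 := H2.mk_eq_zero.2 (dies_top hy)
    rw [this]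
    exact Submodule.zero_mem _
  | succ n ih =>
    intro G _ _ 𝓛 h hζG N hN hNn hidx y hy κ hκ
    classical
    obtain ⟨κ₀, hκ₀m, hκ₀N, σ, hσ⟩ := exists_char hidx
    -- `κ₀` as an element of `Z1`
    have hκ₀LC : 𝓛.LC κ₀ := ⟨N, hN, fun g s hs => by rw [hκ₀m, hκ₀N s hs, add_zero]⟩
    let κ' : Z1 𝓛 (triv p G) := ⟨κ₀, hκ₀LC, fun g g' => (hκ₀m g g').trans (add_comm _ _)⟩
    have hκ' : κ' ≠ 0 := by
      intro h0
      have : κ₀ σ = 0 := congrFun (congrArg Subtype.val h0) σ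
      rw [hσ] at this; exact one_ne_zero this
    let H : Subgroup G := kerZ1 κ'
    have hκH : ∀ g, g ∈ H ↔ (κ' : G → ZMod p) g = 0 := mem_kerZ1 κ'
    have hH : H ∈ 𝓛 := kerZ1_mem κ'
    have hHn : H.Normal := char_normal (Z1_map_mul κ') hκH
    have hNH : N ≤ H := fun g hg => (hκH g).2 (hκ₀N g hg)
    have hHfin := Levels.finiteIndex hH
    have : Fintype (G ⧸ H.subtype.range) := by
      rw [Subgroup.range_subtype]; exact Fintype.ofFinite _
    -- index of `H`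
    have hHidx : H.index = p := by
      let f : G →* Multiplicative (ZMod p) :=
        { toFun := fun g => Multiplicative.ofAdd (κ₀ g)
          map_one' := by rw [char_one hκ₀m]; rfl
          map_mul' := fun g g' => by rw [hκ₀m]; rfl }
      have hf : Function.Surjective f := by
        intro a
        refine ⟨σ ^ (a.toAdd).val, ?_⟩
        change Multiplicative.ofAdd (κ₀ _) = a
        rw [char_pow hκ₀m, hσ]; simp
      have hker : f.ker = H := by
        ext g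
        rw [MonoidHom.mem_ker, hκH]
        exact Iff.rfl
      rw [← hker, Subgroup.index_ker, MonoidHom.range_eq_top.2 hf, Subgroup.card_top,
        Nat.card_congr Multiplicative.toAdd, Nat.card_zmod]
    have hN' : (N.subgroupOf H).index = p ^ n := by
      have h1 := Subgroup.relIndex_mul_index hNH
      rw [hHidx, hidx, pow_succ] at h1
      exact Nat.eq_of_mul_eq_mul_right (Fact.out : p.Prime).pos h1
    have hloc := h.restrict hH
    have hN'mem : N.subgroupOf H ∈ 𝓛.restrict H := ⟨N, hN, le_rfl⟩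
    let yH : Z2 (𝓛.restrict H) (triv p H) := ⟨_, res_mem_Z2 y.2 H⟩
    have hih := ih H (𝓛.restrict H) hloc (fun g => hζG g) (N.subgroupOf H) hN'mem inferInstance hN'
      yH (hy.restrict H)
    have hcd := corData_triv (p := p) hH
    -- the restriction of `y` to `H` is trivial
    have hres : H2.mk (𝓛.restrict H) (triv p H) yH = 0 := by
      obtain ⟨x, hx⟩ := h.exists_notMem_span hζ hζG hdiv κ'
      obtain ⟨w, hw, hxw⟩ := exists_ne_zero_of_ker (sym 𝓛 p) (fun x y => sym_skew x y)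
        (fun x hx => h.finrank_range_sym hζ hζG hdiv x hx) hκ' hx
      obtain ⟨z, hz⟩ := h.exists_cor1_eq hζ hζG hdiv hκH hσ hw
      -- `cor (x_H ∪ z) = x ∪ w`
      have hcor : H2.cor hcd (sym (𝓛.restrict H) p (resZ1 H x) z) = sym 𝓛 p x w := by
        rw [sym_apply, sym_apply, H2.cor_mk, H2.mk_eq_mk]
        have h1 := cor2_cup (i := H.subtype) (𝓛 := 𝓛) (𝓛' := 𝓛.restrict H) hcd.inj hcd.range_mem
          hcd.cocont (Z1_map_mul x) z.2.1 (Z1_map_mul z)
        have h2 : cor1 H.subtype (triv p G) (z : H → ZMod p) = (w : G → ZMod p) := funext hz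
        rw [h2] at h1
        exact h1
      have hne : sym (𝓛.restrict H) p (resZ1 H x) z ≠ 0 := by
        intro h0
        rw [h0, map_zero] at hcor
        exact hxw hcor.symm
      have hxH : resZ1 H x ≠ 0 := by
        intro h0; rw [h0, map_zero] at hne; exact hne rfl
      have hmem := hih (resZ1 H x) hxH
      have hline := hloc.finrank_range_sym hζ (fun g => hζG g) hdiv (resZ1 H x) hxH
      have hspan : Submodule.span (ZMod p) {sym (𝓛.restrict H) p (resZ1 H x) z} =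
          LinearMap.range (sym (𝓛.restrict H) p (resZ1 H x)) := by
        have : FiniteDimensional (ZMod p) (LinearMap.range (sym (𝓛.restrict H) p (resZ1 H x))) :=
          Module.finite_of_finrank_eq_succ hline
        apply Submodule.eq_of_le_of_finrank_eq
        · rw [Submodule.span_singleton_le_iff_mem]; exact ⟨z, rfl⟩
        · rw [finrank_span_singleton hne, hline]
      rw [← hspan, Submodule.mem_span_singleton] at hmem
      obtain ⟨c, hc⟩ := hmem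
      have h3 : H2.cor hcd (H2.mk (𝓛.restrict H) (triv p H) yH) = 0 := by
        have h4 : H2.mk (𝓛.restrict H) (triv p H) yH = H2.res hcd (H2.mk 𝓛 (triv p G) y) := by
          rw [H2.res_mk]; rfl
        rw [h4, H2.cor_res]
        have h5 : Fintype.card (G ⧸ H.subtype.range) = p := by
          rw [← Nat.card_eq_fintype_card]
          change H.subtype.range.index = p
          rw [Subgroup.range_subtype, hHidx]
        rw [h5, ← Nat.cast_smul_eq_nsmul (ZMod p)]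
        simp
      rw [← hc, map_smul, hcor] at h3
      rw [← hc, (smul_eq_zero.1 h3).resolve_right hxw, zero_smul]
    have hresB : (fun a b : H => (y : G → G → ZMod p) a b) ∈ B2 (𝓛.restrict H) (triv p H) :=
      H2.mk_eq_zero.1 hres
    obtain ⟨β, hβ0, hβ, hyβ⟩ := exists_cup_of_restrict hζ h.isGal hζG hdiv κ'.2.1 (Z1_map_mul κ')
      hκH hσ y.2 hresB
    have hlam : kummer p ζ β ∈ Z1 𝓛 (triv p G) := ⟨kummer_LC hζ h.isGal hβ0 hζG hβ,
      fun g g' => (kummer_map_mul hζ hβ0 (hζG g) (hβ g) (hβ g')).trans (add_comm _ _)⟩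
    rw [h.common_line hζ hζG hdiv hκ hκ']
    refine ⟨⟨kummer p ζ β, hlam⟩, ?_⟩
    rw [eq_comm, sym_apply, H2.mk_eq_mk]
    exact hyβ

end Tower


section Final

variable {l : ℕ} [Fact l.Prime] {Ω : Type} [Field Ω] [Algebra ℚ_[l] Ω] [IsGalois ℚ_[l] Ω]
variable {p : ℕ} [Fact p.Prime] {ζ : Ω}
variable {G : Type} [Group G] [MulSemiringAction G Ω] {𝓛 : Levels G}

lemma LocGal.exists_ne_zero (h : LocGal l 𝓛 Ω) (hζ : IsPrimitiveRoot ζ p)
    (hζG : ∀ g : G, g • ζ = ζ) (hdiv : ∀ w : Ω, w ≠ 0 → ∃ v : Ω, v ^ p = w) :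
    ∃ κ : Z1 𝓛 (triv p G), κ ≠ 0 := by
  obtain ⟨κ, hκ⟩ := h.exists_notMem_span hζ hζG hdiv 0
  exact ⟨κ, fun h0 => hκ (by rw [h0]; exact Submodule.zero_mem _)⟩

/-- two classes are proportional -/
theorem LocGal.exists_smul_eq (h : LocGal l 𝓛 Ω) (hζ : IsPrimitiveRoot ζ p)
    (hζG : ∀ g : G, g • ζ = ζ) (hdiv : ∀ w : Ω, w ≠ 0 → ∃ v : Ω, v ^ p = w)
    {v : H2 𝓛 (triv p G)} (hv : v ≠ 0) (w : H2 𝓛 (triv p G)) : ∃ c : ZMod p, c • v = w := by
  classical
  have hp := (Fact.out : p.Prime)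
  obtain ⟨yv, rfl⟩ := H2.mk_surjective 𝓛 (triv p G) v
  obtain ⟨yw, rfl⟩ := H2.mk_surjective 𝓛 (triv p G) w
  obtain ⟨N1, hN1, hN1n, hd1⟩ := exists_dies yv.2
  obtain ⟨N2, hN2, hN2n, hd2⟩ := exists_dies yw.2
  let N : Subgroup G := N1 ⊓ N2
  have hN : N ∈ 𝓛 := Levels.inf_mem hN1 hN2
  have hNn : N.Normal := inferInstance
  have hNfin := Levels.finiteIndex hN
  have : Finite (G ⧸ N) := inferInstance
  let P : Sylow p (G ⧸ N) := default
  let G₀ : Subgroup G := (P : Subgroup (G ⧸ N)).comap (QuotientGroup.mk' N)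
  have hNG : N ≤ G₀ := by
    intro g hg
    change (QuotientGroup.mk' N) g ∈ (P : Subgroup (G ⧸ N))
    have : (QuotientGroup.mk' N) g = 1 := (QuotientGroup.eq_one_iff g).2 hg
    rw [this]; exact Subgroup.one_mem _
  have hG₀ : G₀ ∈ 𝓛 := Levels.up_mem hN hNG
  have hidx : ¬ p ∣ G₀.index := by
    rw [Subgroup.index_comap_of_surjective _ (QuotientGroup.mk'_surjective N)]
    exact P.not_dvd_index
  obtain ⟨n, hn⟩ := IsPGroup.iff_card.1 P.isPGroup'
  have hNrel : (N.subgroupOf G₀).index = p ^ n := by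
    rw [← hn]
    change N.relIndex G₀ = _
    have h1 : N = (⊥ : Subgroup (G ⧸ N)).comap (QuotientGroup.mk' N) := by
      rw [MonoidHom.comap_bot, QuotientGroup.ker_mk']
    conv_lhs => rw [h1]
    rw [Subgroup.relIndex_comap, Subgroup.map_comap_eq_self_of_surjective
      (QuotientGroup.mk'_surjective N), Subgroup.relIndex_bot_left]
  have : Fintype (G ⧸ G₀.subtype.range) := by
    have := Levels.finiteIndex hG₀
    rw [Subgroup.range_subtype]; exact Fintype.ofFinite _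
  have hcd := corData_triv (p := p) hG₀
  have hinj : Function.Injective (H2.res hcd) := by
    apply H2.res_injective
    rw [← Nat.card_eq_fintype_card]
    change IsUnit ((G₀.subtype.range.index : ℕ) : ZMod p)
    rw [Subgroup.range_subtype, isUnit_iff_ne_zero]
    intro h0
    exact hidx ((ZMod.natCast_eq_zero_iff _ _).1 h0)
  have hloc := h.restrict hG₀
  obtain ⟨κ, hκ⟩ := hloc.exists_ne_zero hζ (fun g => hζG g) hdiv
  have hmem : ∀ y : Z2 𝓛 (triv p G), Dies 𝓛 N (y : G → G → ZMod p) →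
      H2.res hcd (H2.mk 𝓛 (triv p G) y) ∈ LinearMap.range (sym (𝓛.restrict G₀) p κ) := by
    intro y hy
    rw [H2.res_mk]
    exact mem_line_of_dies hζ hdiv n G₀ (𝓛.restrict G₀) hloc (fun g => hζG g) (N.subgroupOf G₀)
      ⟨N, hN, le_rfl⟩ inferInstance hNrel _ (hy.restrict G₀) κ hκ
  have h1 := hmem yv (hd1.mono inf_le_left)
  have h2 := hmem yw (hd2.mono inf_le_right)
  have hne : H2.res hcd (H2.mk 𝓛 (triv p G) yv) ≠ 0 := by
    intro h0
    exact hv (hinj (by rw [h0, map_zero]))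
  have hline := hloc.finrank_range_sym hζ (fun g => hζG g) hdiv κ hκ
  have hspan : Submodule.span (ZMod p) {H2.res hcd (H2.mk 𝓛 (triv p G) yv)} =
      LinearMap.range (sym (𝓛.restrict G₀) p κ) := by
    have : FiniteDimensional (ZMod p) (LinearMap.range (sym (𝓛.restrict G₀) p κ)) :=
      Module.finite_of_finrank_eq_succ hline
    apply Submodule.eq_of_le_of_finrank_eq
    · rw [Submodule.span_singleton_le_iff_mem]; exact h1
    · rw [finrank_span_singleton hne, hline]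
  rw [← hspan, Submodule.mem_span_singleton] at h2
  obtain ⟨c, hc⟩ := h2
  refine ⟨c, hinj ?_⟩
  rw [map_smul, hc]

/-- **`H²(G_K, ℤ/p)` is one-dimensional** for a local field `K ∋ μ_p`. -/
theorem LocGal.finrank_H2 (h : LocGal l 𝓛 Ω) (hζ : IsPrimitiveRoot ζ p)
    (hζG : ∀ g : G, g • ζ = ζ) (hdiv : ∀ w : Ω, w ≠ 0 → ∃ v : Ω, v ^ p = w) :
    finrank (ZMod p) (H2 𝓛 (triv p G)) = 1 := by
  obtain ⟨κ, hκ⟩ := h.exists_ne_zero hζ hζG hdiv
  have h1 := h.finrank_range_sym hζ hζG hdiv κ hκ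
  obtain ⟨v, hv⟩ : ∃ v : LinearMap.range (sym 𝓛 p κ), v ≠ 0 := by
    have : Nontrivial (LinearMap.range (sym 𝓛 p κ)) := Module.nontrivial_of_finrank_pos (by
      rw [h1]; exact one_pos)
    exact _root_.exists_ne _
  refine finrank_eq_one (v : H2 𝓛 (triv p G)) (fun h0 => hv (Subtype.ext h0)) fun w => ?_
  exact h.exists_smul_eq hζ hζG hdiv (fun h0 => hv (Subtype.ext h0)) w

/-- every line of symbols is everything -/
theorem LocGal.range_sym (h : LocGal l 𝓛 Ω) (hζ : IsPrimitiveRoot ζ p)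
    (hζG : ∀ g : G, g • ζ = ζ) (hdiv : ∀ w : Ω, w ≠ 0 → ∃ v : Ω, v ^ p = w)
    {κ : Z1 𝓛 (triv p G)} (hκ : κ ≠ 0) : LinearMap.range (sym 𝓛 p κ) = ⊤ := by
  have h1 := h.finrank_H2 hζ hζG hdiv
  have : FiniteDimensional (ZMod p) (H2 𝓛 (triv p G)) := Module.finite_of_finrank_eq_succ h1
  apply Submodule.eq_top_of_finrank_eq
  rw [h1, h.finrank_range_sym hζ hζG hdiv κ hκ]

/-- the symbol pairing is nondegenerate -/
theorem LocGal.exists_sym_ne_zero (h : LocGal l 𝓛 Ω) (hζ : IsPrimitiveRoot ζ p)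
    (hζG : ∀ g : G, g • ζ = ζ) (hdiv : ∀ w : Ω, w ≠ 0 → ∃ v : Ω, v ^ p = w)
    {κ : Z1 𝓛 (triv p G)} (hκ : κ ≠ 0) : ∃ lam, sym 𝓛 p κ lam ≠ 0 := by
  by_contra hcon
  push Not at hcon
  have h0 : sym 𝓛 p κ = 0 := LinearMap.ext hcon
  have := h.finrank_range_sym hζ hζG hdiv κ hκ
  rw [h0, LinearMap.range_zero, finrank_bot] at this
  exact zero_ne_one this

end Final


section Nondeg

variable {l : ℕ} [Fact l.Prime] {Ω : Type} [Field Ω] [Algebra ℚ_[l] Ω] [IsGalois ℚ_[l] Ω]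
variable {p : ℕ} [Fact p.Prime] {ζ : Ω}
variable {G : Type} [Group G] [MulSemiringAction G Ω] {𝓛 : Levels G}

/-- nondegeneracy of the symbol pairing in terms of Kummer characters -/
theorem LocGal.kummer_eq_zero (h : LocGal l 𝓛 Ω) (hζ : IsPrimitiveRoot ζ p)
    (hζG : ∀ g : G, g • ζ = ζ) (hdiv : ∀ w : Ω, w ≠ 0 → ∃ v : Ω, v ^ p = w)
    {α : Ω} (hα0 : α ≠ 0) (hα : ∀ g : G, g • α ^ p = α ^ p)
    (H : ∀ β : Ω, β ≠ 0 → (∀ g : G, g • β ^ p = β ^ p) →
      cup (kummer p ζ α) (kummer p ζ β) ∈ B2 𝓛 (triv p G)) (g : G) : kummer p ζ α g = 0 := by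
  let κ : Z1 𝓛 (triv p G) := ⟨kummer p ζ α, kummer_LC hζ h.isGal hα0 hζG hα,
      fun g g' => (kummer_map_mul hζ hα0 (hζG g) (hα g) (hα g')).trans (add_comm _ _)⟩
  by_contra hne
  have hκ : κ ≠ 0 := fun h0 => hne (congrFun (congrArg Subtype.val h0) g)
  obtain ⟨lam, hlam⟩ := h.exists_sym_ne_zero hζ hζG hdiv hκ
  obtain ⟨β, hβ0, hβ, hβlam⟩ := exists_kummer_eq hζ h.isGal hζG lam.2.1 (Z1_map_mul lam)
  apply hlam
  rw [sym_eq_zero_iff, hβlam]
  exact H β hβ0 hβ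

end Nondeg

section Concrete

variable (l : ℕ) [Fact l.Prime]

/-- The absolute Galois group of `ℚ_l` -/
theorem locGal_top : LocGal l (galLevels ℚ_[l] (PadicAlgCl l)) (PadicAlgCl l) where
  isGal := isGal_galLevels
  exists_hom := ⟨MonoidHom.id _, fun g x => rfl, by
    rw [MonoidHom.range_eq_top.2 (fun x => ⟨x, rfl⟩)]
    exact Levels.top_mem⟩

variable {l}

theorem locGal_of_mem {U : Subgroup (PadicAlgCl l ≃ₐ[ℚ_[l]] PadicAlgCl l)} (hU : U ∈ galLevels ℚ_[l] (PadicAlgCl l)) :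
    LocGal l ((galLevels ℚ_[l] (PadicAlgCl l)).restrict U) (PadicAlgCl l) := (locGal_top l).restrict hU

theorem locGal_fixingSubgroup (K : IntermediateField ℚ_[l] (PadicAlgCl l)) [FiniteDimensional ℚ_[l] K] :
    LocGal l ((galLevels ℚ_[l] (PadicAlgCl l)).restrict K.fixingSubgroup) (PadicAlgCl l) :=
  locGal_of_mem (fixingSubgroup_mem_galLevels K)

lemma hdiv_padic {p : ℕ} (hp : p ≠ 0) : ∀ w : PadicAlgCl l, w ≠ 0 → ∃ v : PadicAlgCl l, v ^ p = w := fun w _ => by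
  obtain ⟨v, hv⟩ := IsAlgClosed.exists_pow_nat_eq w (Nat.pos_of_ne_zero hp)
  exact ⟨v, hv⟩

lemma mem_iff_fixed (K : IntermediateField ℚ_[l] (PadicAlgCl l)) (x : PadicAlgCl l) :
    x ∈ K ↔ ∀ g : K.fixingSubgroup, g • x = x := by
  have h1 : IntermediateField.fixedField K.fixingSubgroup = K :=
    InfiniteGalois.fixedField_fixingSubgroup K
  conv_lhs => rw [← h1]
  exact Iff.rfl

variable {p : ℕ} [Fact p.Prime] {ζ : PadicAlgCl l} (K : IntermediateField ℚ_[l] (PadicAlgCl l))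
  [FiniteDimensional ℚ_[l] K]

/-- `H²(G_K, ℤ/p)` is one-dimensional. -/
theorem finrank_H2_fixingSubgroup (hζ : IsPrimitiveRoot ζ p) (hζK : ζ ∈ K) :
    finrank (ZMod p) (H2 ((galLevels ℚ_[l] (PadicAlgCl l)).restrict K.fixingSubgroup)
      (triv p K.fixingSubgroup)) = 1 :=
  (locGal_fixingSubgroup K).finrank_H2 hζ ((mem_iff_fixed K ζ).1 hζK)
    (hdiv_padic (Fact.out : p.Prime).ne_zero)

/-- `dim Hom(G_K, ℤ/p) = 2 + [K : ℚ_p]` resp. `2`. -/
theorem finrank_Z1_fixingSubgroup (hζ : IsPrimitiveRoot ζ p) (hζK : ζ ∈ K) :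
    finrank (ZMod p) (Z1 ((galLevels ℚ_[l] (PadicAlgCl l)).restrict K.fixingSubgroup)
      (triv p K.fixingSubgroup)) = 2 + (if p = l then finrank ℚ_[l] K else 0) :=
  (locGal_fixingSubgroup K).finrank_Z1 hζ ((mem_iff_fixed K ζ).1 hζK)
    (hdiv_padic (Fact.out : p.Prime).ne_zero) (mem_iff_fixed K)

/-- nondegeneracy of the local symbol -/
theorem kummer_eq_zero_of_forall (hζ : IsPrimitiveRoot ζ p) (hζK : ζ ∈ K) {α : PadicAlgCl l} (hα0 : α ≠ 0)
    (hα : α ^ p ∈ K) (H : ∀ β : PadicAlgCl l, β ≠ 0 → β ^ p ∈ K →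
      cup (kummer p ζ α) (kummer p ζ β) ∈
        B2 ((galLevels ℚ_[l] (PadicAlgCl l)).restrict K.fixingSubgroup) (triv p K.fixingSubgroup))
    (g : K.fixingSubgroup) : kummer p ζ α g = 0 :=
  (locGal_fixingSubgroup K).kummer_eq_zero hζ ((mem_iff_fixed K ζ).1 hζK)
    (hdiv_padic (Fact.out : p.Prime).ne_zero) hα0 ((mem_iff_fixed K _).1 hα)
    (fun β hβ0 hβ => H β hβ0 ((mem_iff_fixed K _).2 hβ)) g

end Concrete

end Fermat.Agent.LocalF
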