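import Mathlib
import Fermat.Prelude.Thm_IsAdicComplete_of_module_finite

/-!
# Units of a finite extension of `ℚ_[l]`

`h_p(Kˣ) = |Kˣ/p| / |Kˣ[p]| = p ^ (1 + δ [K : ℚ_l])`, where `δ = 1` if `l = p` and `0` otherwise.
-/

set_option autoImplicit false

open Module Polynomial

namespace Fermat.Agent.LocalF


section Adic

variable {O : Type*} [CommRing O] (c : O) [IsAdicComplete (Ideal.span {c}) O]

lemma isUnit_one_add_mul (z : O) : IsUnit (1 + c * z) := by
  have h := IsAdicComplete.le_jacobson_bot (Ideal.span {c}) (Ideal.mem_span_singleton_self c)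
  have h2 := (Ideal.mem_jacobson_bot.1 h) z
  rwa [add_comm] at h2

lemma eq_zero_of_forall_pow_dvd {x : O} (h : ∀ k : ℕ, c ^ k ∣ x) : x = 0 := by
  refine IsHausdorff.haus (I := Ideal.span {c}) inferInstance x fun k => ?_
  rw [SModEq.zero, Ideal.span_singleton_pow, smul_eq_mul, Ideal.mul_top]
  exact Ideal.mem_span_singleton.2 (h k)

lemma exists_add_mul_eq (g : O → O) (hg : ∀ x y, (x - y) ∣ (g x - g y)) (z : O) :
    ∃ x, x + c * g x = z := by
  let X : ℕ → O := fun n => Nat.rec z (fun _ x => z - c * g x) n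
  have hX0 : X 0 = z := rfl
  have hXs : ∀ n, X (n + 1) = z - c * g (X n) := fun n => rfl
  have hstep : ∀ n, c ^ n ∣ X (n + 1) - X n := by
    intro n
    induction n with
    | zero => simp
    | succ n ih =>
      rw [show X (n + 1 + 1) - X (n + 1) = - (c * (g (X (n + 1)) - g (X n))) by
        linear_combination hXs (n + 1) - hXs n]
      rw [dvd_neg, pow_succ']
      exact mul_dvd_mul_left c (ih.trans (hg _ _))
  have hle : ∀ {m n : ℕ}, m ≤ n → c ^ m ∣ X n - X m := by
    intro m n hmn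
    induction n, hmn using Nat.le_induction with
    | base => simp
    | succ n hmn ih =>
      rw [show X (n + 1) - X m = (X (n + 1) - X n) + (X n - X m) by ring]
      exact dvd_add ((pow_dvd_pow c hmn).trans (hstep n)) ih
  obtain ⟨L, hL⟩ := IsPrecomplete.prec (I := Ideal.span {c}) inferInstance (f := X) (by
    intro m n hmn
    rw [SModEq.sub_mem, Ideal.span_singleton_pow, smul_eq_mul, Ideal.mul_top]
    rw [Ideal.mem_span_singleton, ← neg_sub, dvd_neg]
    exact hle hmn)
  have hL' : ∀ n, c ^ n ∣ L - X n := by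
    intro n
    have := hL n
    rw [SModEq.sub_mem, Ideal.span_singleton_pow, smul_eq_mul, Ideal.mul_top] at this
    rw [← neg_sub, dvd_neg]
    exact Ideal.mem_span_singleton.1 this
  refine ⟨L, ?_⟩
  rw [← sub_eq_zero]
  apply eq_zero_of_forall_pow_dvd c
  intro k
  rw [show L + c * g L - z = (L - X (k + 1)) + c * (g L - g (X k)) by rw [hXs]; ring]
  refine dvd_add ((pow_dvd_pow c (Nat.le_succ k)).trans (hL' (k + 1))) ?_
  exact Dvd.dvd.mul_left ((hL' k).trans (hg _ _)) c

omit [IsAdicComplete (Ideal.span {c}) O] in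
lemma exists_pow_eq (p : ℕ) : ∃ h : O[X], ∀ t : O, (1 + t) ^ p = 1 + p * t + t ^ 2 * h.eval t := by
  induction p with
  | zero => exact ⟨0, fun t => by simp⟩
  | succ p ih =>
    obtain ⟨h, hh⟩ := ih
    refine ⟨C (p : O) + h * (1 + X), fun t => ?_⟩
    rw [pow_succ, hh]
    simp only [eval_add, eval_mul, eval_C, eval_one, eval_X]
    push_cast
    ring

omit [IsAdicComplete (Ideal.span {c}) O] in
lemma sub_dvd_aux (h : O[X]) (a b : O) (x y : O) :
    (x - y) ∣ ((a * (x ^ 2 * h.eval (b * x))) - (a * (y ^ 2 * h.eval (b * y)))) := by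
  have : ∀ t, a * (t ^ 2 * h.eval (b * t)) = (C a * (X ^ 2 * h.comp (C b * X))).eval t := by
    intro t; simp
  rw [this, this]
  exact Polynomial.sub_dvd_eval_sub _ _ _

/-- The subgroup of units congruent to `1` modulo `c ^ n`. -/
def V (n : ℕ) : Subgroup Oˣ where
  carrier := {u | c ^ n ∣ (u : O) - 1}
  one_mem' := by simp
  mul_mem' := by
    intro a b ha hb
    simp only [Set.mem_ofPred_eq, Units.val_mul] at *
    rw [show (a : O) * b - 1 = a * (b - 1) + (a - 1) by ring]
    exact dvd_add (Dvd.dvd.mul_left hb _) ha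
  inv_mem' := by
    intro a ha
    simp only [Set.mem_ofPred_eq] at *
    have : (↑a⁻¹ : O) - 1 = - ((↑a⁻¹ : O) * ((a : O) - 1)) := by
      rw [mul_sub, Units.inv_mul]; ring
    rw [this, dvd_neg]
    exact Dvd.dvd.mul_left ha _

omit [IsAdicComplete (Ideal.span {c}) O] in
lemma mem_V {n : ℕ} {u : Oˣ} : u ∈ V c n ↔ c ^ n ∣ (u : O) - 1 := Iff.rfl

lemma exists_mem_V {n : ℕ} (hn : n ≠ 0) (z : O) : ∃ u ∈ V c n, (u : O) = 1 + c ^ n * z := by
  obtain ⟨m, rfl⟩ := Nat.exists_eq_succ_of_ne_zero hn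
  have : IsUnit (1 + c ^ (m + 1) * z) := by
    rw [pow_succ', mul_assoc]; exact isUnit_one_add_mul c _
  obtain ⟨u, hu⟩ := this
  exact ⟨u, by rw [mem_V, hu]; simp, hu⟩

/-- If `p` is a unit, the `p`-power map on `V 1` is surjective. -/
lemma V_one_le_map_pow {p : ℕ} (hp : IsUnit (p : O)) {y : Oˣ} (hy : y ∈ V c 1) :
    ∃ x ∈ V c 1, x ^ p = y := by
  obtain ⟨h, hh⟩ := exists_pow_eq (O := O) p
  obtain ⟨z, hz⟩ := hy
  obtain ⟨v, hv⟩ := hp
  rw [pow_one] at hz
  obtain ⟨t, ht⟩ := exists_add_mul_eq c (fun t => (↑v⁻¹ : O) * (t ^ 2 * h.eval (c * t)))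
    (fun x y => sub_dvd_aux h _ _ x y) (↑v⁻¹ * z)
  obtain ⟨x, hx, hx'⟩ := exists_mem_V c (n := 1) one_ne_zero t
  refine ⟨x, hx, Units.ext ?_⟩
  rw [Units.val_pow_eq_pow_val, hx', pow_one, hh]
  have h1 : v * (t + c * ((↑v⁻¹ : O) * (t ^ 2 * h.eval (c * t)))) = z := by
    rw [ht, ← mul_assoc, Units.mul_inv, one_mul]
  have h2 : (y : O) = 1 + c * z := by rw [← hz]; ring
  rw [h2, ← h1, ← hv]
  have h3 : (v : O) * (↑v⁻¹ : O) = 1 := Units.mul_inv v
  linear_combination (- c ^ 2 * (t ^ 2 * h.eval (c * t))) * h3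

/-- For `p = c` the `p`-power map `V n → V (n+1)` is surjective for `n ≥ 2`. -/
lemma V_succ_le_map_pow {p : ℕ} (hp : (p : O) = c) {n : ℕ} (hn : 2 ≤ n) {y : Oˣ} (hy : y ∈ V c (n + 1)) :
    ∃ x ∈ V c n, x ^ p = y := by
  obtain ⟨m, rfl⟩ := Nat.exists_eq_add_of_le' hn
  obtain ⟨h, hh⟩ := exists_pow_eq (O := O) p
  obtain ⟨z, hz⟩ := hy
  obtain ⟨t, ht⟩ := exists_add_mul_eq c (fun t => c ^ m * (t ^ 2 * h.eval (c ^ (m + 2) * t)))
    (fun x y => sub_dvd_aux h _ _ x y) z
  obtain ⟨x, hx, hx'⟩ := exists_mem_V c (n := m + 2) (by omega) t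
  refine ⟨x, hx, Units.ext ?_⟩
  rw [Units.val_pow_eq_pow_val, hx', hh, hp]
  have h2 : (y : O) = 1 + c ^ (m + 2 + 1) * z := by rw [← hz]; ring
  rw [h2, ← ht]
  ring

omit [IsAdicComplete (Ideal.span {c}) O] in
lemma pow_mem_V {p : ℕ} (hp : (p : O) = c) {n : ℕ} (hn : 2 ≤ n) {x : Oˣ} (hx : x ∈ V c n) :
    x ^ p ∈ V c (n + 1) := by
  obtain ⟨h, hh⟩ := exists_pow_eq (O := O) p
  obtain ⟨t, ht⟩ := hx
  have hx' : (x : O) = 1 + c ^ n * t := by rw [← ht]; ring
  rw [mem_V, Units.val_pow_eq_pow_val, hx', hh, hp]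
  obtain ⟨m, rfl⟩ := Nat.exists_eq_add_of_le' hn
  refine ⟨t + c ^ (m + 1) * (t ^ 2 * h.eval (c ^ (m + 2) * t)), ?_⟩
  ring

lemma pow_eq_one_of_mem_V [IsDomain O] (hc : c ≠ 0) {p : ℕ} (hp : IsUnit (p : O)) {x : Oˣ}
    (hx : x ∈ V c 1) (h1 : x ^ p = 1) : x = 1 := by
  obtain ⟨h, hh⟩ := exists_pow_eq (O := O) p
  obtain ⟨t, ht⟩ := hx
  rw [pow_one] at ht
  obtain ⟨v, hv⟩ := hp
  have hx' : (x : O) = 1 + c * t := by rw [← ht]; ring
  have h2 := congrArg (Units.val) h1
  rw [Units.val_pow_eq_pow_val, hx', hh, Units.val_one, ← hv] at h2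
  have h3 : c * (t * (v * (1 + c * (↑v⁻¹ * (t * h.eval (c * t)))))) = 0 := by
    have h3 : (v : O) * (↑v⁻¹ : O) = 1 := Units.mul_inv v
    linear_combination h2 + (c ^ 2 * (t ^ 2 * h.eval (c * t))) * h3
  have h4 := (mul_eq_zero.1 h3).resolve_left hc
  have h5 : t = 0 := (mul_eq_zero.1 h4).resolve_right
    (v.isUnit.mul (isUnit_one_add_mul c _)).ne_zero
  apply Units.ext
  rw [hx', h5]; simp

lemma pow_eq_one_of_mem_V' [IsDomain O] (hc : c ≠ 0) {p : ℕ} (hp : (p : O) = c) {n : ℕ} (hn : 2 ≤ n)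
    {x : Oˣ} (hx : x ∈ V c n) (h1 : x ^ p = 1) : x = 1 := by
  obtain ⟨m, rfl⟩ := Nat.exists_eq_add_of_le' hn
  obtain ⟨h, hh⟩ := exists_pow_eq (O := O) p
  obtain ⟨t, ht⟩ := hx
  have hx' : (x : O) = 1 + c ^ (m + 2) * t := by rw [← ht]; ring
  have h2 := congrArg (Units.val) h1
  rw [Units.val_pow_eq_pow_val, hx', hh, Units.val_one, hp] at h2
  have h3 : c ^ (m + 3) * (t * (1 + c * (c ^ m * (t * h.eval (c ^ (m + 2) * t))))) = 0 := by
    linear_combination h2
  have h4 := (mul_eq_zero.1 h3).resolve_left (pow_ne_zero _ hc)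
  have h5 : t = 0 := (mul_eq_zero.1 h4).resolve_right (isUnit_one_add_mul c _).ne_zero
  apply Units.ext
  rw [hx', h5]; simp

end Adic

section Count

variable {O : Type*} [CommRing O] [IsDomain O] (c : O) [IsAdicComplete (Ideal.span {c}) O]

omit [IsDomain O] [IsAdicComplete (Ideal.span {c}) O] in
lemma V_antitone {m n : ℕ} (h : m ≤ n) : V c n ≤ V c m := fun _ hu =>
  (pow_dvd_pow c h).trans hu

/-- `V n / V (n+1) ≅ O / c`. -/
lemma relIndex_V_succ (hc : c ≠ 0) {n : ℕ} (hn : n ≠ 0) :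
    (V c (n + 1)).relIndex (V c n) = Nat.card (O ⧸ Ideal.span {c}) := by
  classical
  choose z hz using fun u : V c n => (u.2 : c ^ n ∣ (u.1 : O) - 1)
  have hcn : c ^ n ≠ 0 := pow_ne_zero _ hc
  let θ : V c n →* Multiplicative (O ⧸ Ideal.span {c}) :=
    { toFun := fun u => Multiplicative.ofAdd (Ideal.Quotient.mk _ (z u))
      map_one' := by
        have : z 1 = 0 := by
          have h := hz 1
          simp only [OneMemClass.coe_one, Units.val_one, sub_self] at h
          exact (mul_eq_zero.1 h.symm).resolve_left hcn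
        rw [this]; simp
      map_mul' := by
        intro a b
        rw [← ofAdd_add, ← map_add]
        congr 1
        rw [Ideal.Quotient.eq, Ideal.mem_span_singleton]
        obtain ⟨m, hm⟩ : ∃ m, n = m + 1 := Nat.exists_eq_succ_of_ne_zero hn
        refine ⟨c ^ m * (z a * z b), ?_⟩
        have h1 := hz (a * b)
        have h2 := hz a
        have h3 := hz b
        apply mul_left_cancel₀ hcn
        simp only [Subgroup.coe_mul, Units.val_mul] at h1
        have h2' : ((a : Oˣ) : O) = 1 + c ^ n * z a := by linear_combination h2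
        have h3' : ((b : Oˣ) : O) = 1 + c ^ n * z b := by linear_combination h3
        rw [h2', h3'] at h1
        have h4 : c ^ n = c ^ m * c := by rw [hm, pow_succ]
        linear_combination -h1 + (c ^ n * z a * z b) * h4 }
  have hker : θ.ker = (V c (n + 1)).subgroupOf (V c n) := by
    ext u
    rw [MonoidHom.mem_ker, Subgroup.mem_subgroupOf]
    change Multiplicative.ofAdd (Ideal.Quotient.mk _ (z u)) = 1 ↔ _
    rw [ofAdd_eq_one, Ideal.Quotient.eq_zero_iff_mem, Ideal.mem_span_singleton, mem_V, hz u, pow_succ]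
    exact (mul_dvd_mul_iff_left hcn).symm
  have hsurj : Function.Surjective θ := by
    intro y
    obtain ⟨x, hx⟩ := Ideal.Quotient.mk_surjective (Multiplicative.toAdd y)
    obtain ⟨u, hu, hu'⟩ := exists_mem_V c hn x
    refine ⟨⟨u, hu⟩, ?_⟩
    have : z ⟨u, hu⟩ = x := by
      have h := hz ⟨u, hu⟩
      simp only at h
      rw [hu'] at h
      apply mul_left_cancel₀ hcn
      linear_combination -h
    change Multiplicative.ofAdd (Ideal.Quotient.mk _ (z ⟨u, hu⟩)) = y
    rw [this, hx]; rfl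
  rw [Subgroup.relIndex, ← hker, Subgroup.index_ker, MonoidHom.range_eq_top.2 hsurj,
    Subgroup.card_top]
  rfl

omit [IsDomain O] [IsAdicComplete (Ideal.span {c}) O] in
lemma V_finiteIndex (n : ℕ) [Finite (O ⧸ Ideal.span {c ^ n})] : (V c n).FiniteIndex := by
  have : V c n = (Units.map (Ideal.Quotient.mk (Ideal.span {c ^ n})).toMonoidHom).ker := by
    ext u
    rw [MonoidHom.mem_ker, mem_V, Units.ext_iff, Units.coe_map, Units.val_one]
    change _ ↔ Ideal.Quotient.mk (Ideal.span {c ^ n}) (u : O) = 1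
    rw [← map_one (Ideal.Quotient.mk (Ideal.span {c ^ n})), Ideal.Quotient.eq, Ideal.mem_span_singleton]
  rw [this]
  infer_instance

end Count



section Index

variable {A : Type*} [CommGroup A]

lemma card_inf_mul_relIndex (B C : Subgroup A) :
    Nat.card (C ⊓ B : Subgroup A) * B.relIndex C = Nat.card C := by
  have h := Subgroup.relIndex_mul_relIndex (⊥ : Subgroup A) (C ⊓ B) C bot_le inf_le_left
  rw [Subgroup.relIndex_bot_left, Subgroup.relIndex_bot_left, Subgroup.inf_relIndex_left] at h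
  exact h

/-- `[B : f B] * |A[f]| = [A : f A] * |B[f]|` for a finite index subgroup `B`. -/
lemma relIndex_map_mul_card_ker (f : A →* A) (B : Subgroup A) [B.FiniteIndex] (hB : B.map f ≤ B) :
    (B.map f).relIndex B * Nat.card f.ker = f.range.index * Nat.card (f.ker ⊓ B : Subgroup A) := by
  have h1 : (B.map f).relIndex B * B.index = (B ⊔ f.ker).index * f.range.index := by
    rw [Subgroup.relIndex_mul_index hB, Subgroup.index_map]
  have h2 : B.relIndex (B ⊔ f.ker) * (B ⊔ f.ker).index = B.index :=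
    Subgroup.relIndex_mul_index le_sup_left
  have h3 : B.relIndex (B ⊔ f.ker) = B.relIndex f.ker := Subgroup.relIndex_sup_left _ _
  have h4 := card_inf_mul_relIndex B f.ker
  have h5 : B.index ≠ 0 := Subgroup.FiniteIndex.index_ne_zero
  apply mul_right_cancel₀ h5
  calc (B.map f).relIndex B * Nat.card f.ker * B.index
      = ((B.map f).relIndex B * B.index) * Nat.card f.ker := by ring
    _ = (B ⊔ f.ker).index * f.range.index * (Nat.card (f.ker ⊓ B : Subgroup A) * B.relIndex f.ker) := by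
        rw [h1, h4]
    _ = f.range.index * Nat.card (f.ker ⊓ B : Subgroup A) * (B.relIndex (B ⊔ f.ker) * (B ⊔ f.ker).index) := by
        rw [h3]; ring
    _ = _ := by rw [h2]

end Index



lemma index_zpowers_int (a : ℤ) : (Subgroup.zpowers (Multiplicative.ofAdd a)).index = a.natAbs := by
  rw [← Int.index_zmultiples a]
  rfl

section Index

variable {A : Type*} [CommGroup A]

/-- If `w : A → ℤ` is nontrivial with kernel `U` then `[A : A^p] = p [U : U^p]`. -/
lemma index_range_pow_eq (w : A →* Multiplicative ℤ) (hw : w ≠ 1) {p : ℕ} (hp : p ≠ 0) :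
    (powMonoidHom p : A →* A).range.index
      = p * ((w.ker).map (powMonoidHom p)).relIndex w.ker := by
  set P := (powMonoidHom p : A →* A).range with hP
  have h1 : (w.ker).map (powMonoidHom p) = P ⊓ w.ker := by
    ext x
    simp only [Subgroup.mem_map, Subgroup.mem_inf, hP, MonoidHom.mem_range, MonoidHom.mem_ker]
    constructor
    · rintro ⟨y, hy, rfl⟩
      exact ⟨⟨y, rfl⟩, by simp [hy]⟩
    · rintro ⟨⟨y, rfl⟩, hy⟩
      refine ⟨y, ?_, rfl⟩
      rw [powMonoidHom_apply, map_pow] at hy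
      have h2 : (p : ℤ) * Multiplicative.toAdd (w y) = 0 := by
        have := congrArg Multiplicative.toAdd hy
        simpa using this
      have h3 := (mul_eq_zero.1 h2).resolve_left (by exact_mod_cast hp)
      exact Multiplicative.toAdd.injective h3
  have h2 : (P ⊔ w.ker).index = p := by
    obtain ⟨g, hg⟩ : ∃ g, w.range = Subgroup.zpowers g := by
      obtain ⟨⟨g, hg⟩, hg'⟩ := IsCyclic.exists_generator (α := w.range)
      refine ⟨g, le_antisymm ?_ ?_⟩
      · intro x hx
        obtain ⟨k, hk⟩ := hg' ⟨x, hx⟩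
        exact ⟨k, congrArg Subtype.val hk⟩
      · rw [Subgroup.zpowers_le]; exact hg
    obtain ⟨a, rfl⟩ : ∃ a : ℤ, Multiplicative.ofAdd a = g := ⟨Multiplicative.toAdd g, rfl⟩
    have ha : a ≠ 0 := by
      rintro rfl
      apply hw
      have : w.range = ⊥ := by rw [hg]; simp
      rw [MonoidHom.range_eq_bot_iff] at this
      exact this
    have h3 := Subgroup.index_map P w
    have h4 : P.map w = Subgroup.zpowers (Multiplicative.ofAdd (p * a)) := by
      have h5 : Multiplicative.ofAdd ((p : ℤ) * a) = (Multiplicative.ofAdd a) ^ p := by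
        rw [← ofAdd_nsmul, nsmul_eq_mul]
      rw [h5]
      have h6 : P.map w = (w.range).map (powMonoidHom p) := by
        rw [hP, MonoidHom.map_range, MonoidHom.map_range]
        congr 1
        ext x
        simp
      rw [h6, hg, MonoidHom.map_zpowers, powMonoidHom_apply]
    rw [h4, hg, index_zpowers_int, index_zpowers_int, Int.natAbs_mul, Int.natAbs_natCast] at h3
    exact (mul_right_cancel₀ (by simpa using ha) h3).symm
  rw [h1, Subgroup.inf_relIndex_right, ← h2, ← Subgroup.relIndex_sup_right, sup_comm, mul_comm,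
    Subgroup.relIndex_mul_index le_sup_right]

end Index




variable (l : ℕ) [Fact l.Prime] (K : Type*) [Field K] [Algebra ℚ_[l] K]

/-- The `ℤ_[l]`-algebra structure on a `ℚ_[l]`-algebra. -/
noncomputable abbrev algZ : Algebra ℤ_[l] K :=
  ((algebraMap ℚ_[l] K).comp (algebraMap ℤ_[l] ℚ_[l])).toAlgebra

section

attribute [local instance] algZ

instance towerZ : IsScalarTower ℤ_[l] ℚ_[l] K :=
  IsScalarTower.of_algebraMap_eq fun _ => rfl

/-- The ring of integers of a finite extension `K` of `ℚ_[l]`. -/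
noncomputable abbrev OK : Subalgebra ℤ_[l] K := integralClosure ℤ_[l] K

variable [FiniteDimensional ℚ_[l] K]

omit [FiniteDimensional ℚ_[l] K] in
lemma norm_algebraMap_norm_pow (x : ℚ_[l]) : (∃ y : ℤ_[l], (algebraMap ℤ_[l] ℚ_[l]) y = x) ↔ ‖x‖ ≤ 1 := by
  constructor
  · rintro ⟨y, rfl⟩
    exact y.2
  · intro h
    exact ⟨⟨x, h⟩, rfl⟩

lemma norm_norm_eq (x : K) : ‖Algebra.norm ℚ_[l] x‖ =
    ‖(minpoly ℚ_[l] x).coeff 0‖ ^ finrank (IntermediateField.adjoin ℚ_[l] {x}) K := by
  have hx : IsIntegral ℚ_[l] x := Algebra.IsIntegral.isIntegral x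
  rw [Algebra.norm_eq_norm_adjoin ℚ_[l] x, norm_pow]
  congr 1
  have := Algebra.PowerBasis.norm_gen_eq_coeff_zero_minpoly (IntermediateField.adjoin.powerBasis hx)
  rw [IntermediateField.adjoin.powerBasis_gen hx] at this
  rw [this, norm_mul, norm_pow, norm_neg, norm_one, one_pow, one_mul,
    IntermediateField.minpoly_gen]

lemma mem_OK_iff_norm (x : K) : x ∈ OK l K ↔ ‖Algebra.norm ℚ_[l] x‖ ≤ 1 := by
  have hx : IsIntegral ℚ_[l] x := Algebra.IsIntegral.isIntegral x
  constructor
  · intro h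
    have h1 : IsIntegral ℤ_[l] (Algebra.norm ℚ_[l] x) := Algebra.isIntegral_norm ℚ_[l] h
    obtain ⟨y, hy⟩ := IsIntegrallyClosed.isIntegral_iff.1 h1
    rw [← hy]
    exact y.2
  · intro h
    rw [norm_norm_eq] at h
    have hpos : 0 < finrank (IntermediateField.adjoin ℚ_[l] {x}) K := finrank_pos
    have h1 : ‖(minpoly ℚ_[l] x).coeff 0‖ ≤ 1 := (pow_le_one_iff_of_nonneg (norm_nonneg _) hpos.ne').1 h
    have h2 : spectralNorm ℚ_[l] K x ≤ 1 := by
      rw [spectralNorm.spectralNorm_eq_norm_coeff_zero_rpow]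
      exact Real.rpow_le_one (norm_nonneg _) h1 (by positivity)
    have h3 := (spectralValue_le_one_iff (minpoly.monic hx)).1 h2
    have h4 : minpoly ℚ_[l] x ∈ Polynomial.lifts (algebraMap ℤ_[l] ℚ_[l]) := by
      rw [Polynomial.lifts_iff_coeff_lifts]
      intro n
      exact ⟨⟨_, h3 n⟩, rfl⟩
    obtain ⟨q, hq, -, hqm⟩ := Polynomial.lifts_and_natDegree_eq_and_monic h4 (minpoly.monic hx)
    refine ⟨q, hqm, ?_⟩
    have := minpoly.aeval ℚ_[l] x
    rw [← hq, Polynomial.aeval_def, Polynomial.eval₂_map] at this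
    exact this


omit [FiniteDimensional ℚ_[l] K] in
lemma map_maximalIdeal_eq : (IsLocalRing.maximalIdeal ℤ_[l]).map (algebraMap ℤ_[l] (OK l K))
    = Ideal.span {(l : OK l K)} := by
  rw [PadicInt.maximalIdeal_eq_span_p, Ideal.map_span, Set.image_singleton, map_natCast]

instance finite_OK : Module.Finite ℤ_[l] (OK l K) :=
  IsIntegralClosure.finite ℤ_[l] ℚ_[l] K (OK l K)

instance isAdicComplete_OK : IsAdicComplete (Ideal.span {(l : OK l K)}) (OK l K) := by
  rw [← map_maximalIdeal_eq, IsAdicComplete.map_algebraMap_iff]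
  exact IsAdicComplete.of_module_finite (IsLocalRing.maximalIdeal ℤ_[l]) (OK l K)

instance isFractionRing_OK : IsFractionRing (OK l K) K :=
  IsIntegralClosure.isFractionRing_of_finite_extension ℤ_[l] ℚ_[l] K (OK l K)

lemma card_quot_of_basis {R : Type*} [CommRing R] [Algebra ℤ_[l] R] {ι : Type*} [Fintype ι]
    (b : Basis ι ℤ_[l] R) : Nat.card (R ⧸ Ideal.span {(l : R)}) = l ^ Fintype.card ι := by
  classical
  let θ : R →+ (ι → ZMod l) :=
    { toFun := fun x i => PadicInt.toZMod (b.repr x i)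
      map_zero' := by ext; simp
      map_add' := by intro x y; ext; simp }
  have hker : θ.ker = (Ideal.span {(l : R)}).toAddSubgroup := by
    ext x
    rw [AddMonoidHom.mem_ker, Submodule.mem_toAddSubgroup, Ideal.mem_span_singleton]
    constructor
    · intro h
      have h1 : ∀ i, ∃ z : ℤ_[l], b.repr x i = l * z := by
        intro i
        have h2 : PadicInt.toZMod (b.repr x i) = 0 := congrFun h i
        have h3 : b.repr x i ∈ RingHom.ker (PadicInt.toZMod (p := l)) := h2
        rw [PadicInt.ker_toZMod, PadicInt.maximalIdeal_eq_span_p, Ideal.mem_span_singleton] at h3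
        exact h3
      choose z hz using h1
      refine ⟨∑ i, z i • b i, ?_⟩
      rw [← b.sum_repr x, Finset.mul_sum]
      refine Finset.sum_congr rfl fun i _ => ?_
      rw [hz i, mul_smul, Algebra.smul_def (l : ℤ_[l]), map_natCast]
    · rintro ⟨y, rfl⟩
      ext i
      change PadicInt.toZMod (b.repr ((l : R) * y) i) = 0
      rw [← nsmul_eq_mul, map_nsmul, Finsupp.smul_apply, map_nsmul, nsmul_eq_mul, CharP.cast_eq_zero,
        zero_mul]
  have hsurj : Function.Surjective θ := by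
    intro y
    choose z hz using fun i => ZMod.ringHom_surjective (PadicInt.toZMod (p := l)) (y i)
    refine ⟨∑ i, z i • b i, ?_⟩
    ext i
    change PadicInt.toZMod (b.repr (∑ i, z i • b i) i) = y i
    rw [b.repr_sum_self, hz]
  have h1 : θ.ker.index = Nat.card (ι → ZMod l) := by
    rw [AddSubgroup.index_ker, AddMonoidHom.range_eq_top.2 hsurj, AddSubgroup.card_top]
  rw [hker] at h1
  have h2 : Nat.card (R ⧸ Ideal.span {(l : R)}) = (Ideal.span {(l : R)}).toAddSubgroup.index := rfl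
  rw [h2, h1, Nat.card_fun, Nat.card_zmod, Nat.card_eq_fintype_card]

lemma card_OK_quot : Nat.card (OK l K ⧸ Ideal.span {(l : OK l K)}) = l ^ finrank ℚ_[l] K := by
  classical
  have : Module.IsTorsionFree ℤ_[l] K := by
    rw [Module.isTorsionFree_iff_algebraMap_injective]
    exact (algebraMap ℚ_[l] K).injective.comp (IsFractionRing.injective ℤ_[l] ℚ_[l])
  have hr := IsIntegralClosure.rank ℤ_[l] ℚ_[l] K (OK l K)
  have : Module.Free ℤ_[l] (OK l K) := IsIntegralClosure.module_free ℤ_[l] ℚ_[l] K (OK l K)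
  let b := Module.Free.chooseBasis ℤ_[l] (OK l K)
  rw [card_quot_of_basis l b, ← hr, Module.finrank_eq_card_basis b]

/-- The valuation of the norm, as a homomorphism `Kˣ → ℤ`. -/
noncomputable def wK : Kˣ →* Multiplicative ℤ where
  toFun x := Multiplicative.ofAdd (Padic.valuation (Algebra.norm ℚ_[l] (x : K)))
  map_one' := by simp
  map_mul' x y := by
    rw [Units.val_mul, map_mul, Padic.valuation_mul
      (Algebra.norm_ne_zero_iff.2 x.ne_zero) (Algebra.norm_ne_zero_iff.2 y.ne_zero), ofAdd_add]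

lemma wK_apply (x : Kˣ) :
    wK l K x = Multiplicative.ofAdd (Padic.valuation (Algebra.norm ℚ_[l] (x : K))) := rfl

omit [FiniteDimensional ℚ_[l] K] in
lemma l_ne_zero : (l : K) ≠ 0 := by
  have : (algebraMap ℚ_[l] K) (l : ℚ_[l]) ≠ 0 := by
    rw [_root_.map_ne_zero]
    exact_mod_cast (Fact.out : l.Prime).ne_zero
  rwa [map_natCast] at this

omit [FiniteDimensional ℚ_[l] K] in
lemma l_ne_zero_OK : (l : OK l K) ≠ 0 := by
  intro h
  apply l_ne_zero l K
  have := congrArg (algebraMap (OK l K) K) h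
  rwa [map_natCast, map_zero] at this

lemma wK_l : wK l K (Units.mk0 (l : K) (l_ne_zero l K)) = Multiplicative.ofAdd (finrank ℚ_[l] K : ℤ) := by
  rw [wK_apply, Units.val_mk0]
  have : (l : K) = algebraMap ℚ_[l] K (l : ℚ_[l]) := by simp
  rw [this, Algebra.norm_algebraMap, Padic.valuation_pow, Padic.valuation_p, mul_one]

lemma wK_ne_one : wK l K ≠ 1 := by
  intro h
  have h1 := wK_l l K
  rw [h, MonoidHom.one_apply, eq_comm, ofAdd_eq_one] at h1
  have : 0 < finrank ℚ_[l] K := finrank_pos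
  omega

lemma mem_ker_wK_iff (x : Kˣ) : x ∈ (wK l K).ker ↔ ‖Algebra.norm ℚ_[l] (x : K)‖ = 1 := by
  rw [MonoidHom.mem_ker, wK_apply, ofAdd_eq_one]
  have h0 : Algebra.norm ℚ_[l] (x : K) ≠ 0 := Algebra.norm_ne_zero_iff.2 x.ne_zero
  rw [Padic.norm_eq_zpow_neg_valuation h0]
  have hl : (1 : ℝ) < l := by exact_mod_cast (Fact.out : l.Prime).one_lt
  constructor
  · intro h; rw [h]; simp
  · intro h
    have := (zpow_eq_one_iff_right₀ (by positivity) hl.ne').1 h
    omega

/-- The inclusion of the units of `O_K` in `Kˣ`. -/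
noncomputable def unitsIncl : (OK l K)ˣ →* Kˣ := Units.map (OK l K).val.toMonoidHom

omit [FiniteDimensional ℚ_[l] K] in
lemma unitsIncl_injective : Function.Injective (unitsIncl l K) :=
  Units.map_injective Subtype.val_injective

lemma range_unitsIncl : (unitsIncl l K).range = (wK l K).ker := by
  ext x
  constructor
  · rintro ⟨u, rfl⟩
    rw [mem_ker_wK_iff]
    have h1 : ‖Algebra.norm ℚ_[l] ((u : OK l K) : K)‖ ≤ 1 := (mem_OK_iff_norm l K _).1 (u : OK l K).2
    have h2 : ‖Algebra.norm ℚ_[l] ((↑u⁻¹ : OK l K) : K)‖ ≤ 1 :=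
      (mem_OK_iff_norm l K _).1 (↑u⁻¹ : OK l K).2
    have h3 : ‖Algebra.norm ℚ_[l] ((u : OK l K) : K)‖ * ‖Algebra.norm ℚ_[l] ((↑u⁻¹ : OK l K) : K)‖ = 1 := by
      rw [← norm_mul, ← map_mul, ← Subalgebra.coe_mul, Units.mul_inv]
      simp
    change ‖Algebra.norm ℚ_[l] ((u : OK l K) : K)‖ = 1
    refine le_antisymm h1 ?_
    by_contra h4
    push Not at h4
    have : ‖Algebra.norm ℚ_[l] ((u : OK l K) : K)‖ * ‖Algebra.norm ℚ_[l] ((↑u⁻¹ : OK l K) : K)‖ < 1 := by
      calc _ ≤ ‖Algebra.norm ℚ_[l] ((u : OK l K) : K)‖ * 1 :=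
            mul_le_mul_of_nonneg_left h2 (norm_nonneg _)
        _ < 1 := by rw [mul_one]; exact h4
    exact absurd h3 this.ne
  · intro hx
    rw [mem_ker_wK_iff] at hx
    have h1 : (x : K) ∈ OK l K := (mem_OK_iff_norm l K _).2 hx.le
    have h2 : ((x⁻¹ : Kˣ) : K) ∈ OK l K := by
      rw [mem_OK_iff_norm]
      exact ((mem_ker_wK_iff l K _).1 (inv_mem ((mem_ker_wK_iff l K x).2 hx))).le
    refine ⟨⟨⟨x, h1⟩, ⟨_, h2⟩, ?_, ?_⟩, ?_⟩
    · ext; simp
    · ext; simp
    · ext; rfl

instance finite_OK_quot_pow (n : ℕ) : Finite (OK l K ⧸ Ideal.span {(l : OK l K) ^ n}) := by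
  have : Finite (OK l K ⧸ Ideal.span {(l : OK l K)}) := by
    apply Nat.finite_of_card_ne_zero
    rw [card_OK_quot]
    exact pow_ne_zero _ (Fact.out : l.Prime).ne_zero
  rw [← Ideal.span_singleton_pow]
  exact Ideal.finite_quotient_pow ⟨{(l : OK l K)}, by simp⟩ n

/-- The index of the `p`-th powers in the unit group of `O_K`. -/
theorem index_range_pow_OK {p : ℕ} (hp : p.Prime) :
    (powMonoidHom p : (OK l K)ˣ →* (OK l K)ˣ).range.index =
      (if p = l then l ^ finrank ℚ_[l] K else 1) *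
        Nat.card (powMonoidHom p : (OK l K)ˣ →* (OK l K)ˣ).ker := by
  have hl0 : (l : OK l K) ≠ 0 := l_ne_zero_OK l K
  split_ifs with h
  · subst h
    have := V_finiteIndex (p : OK p K) 2
    have hmap : (V (p : OK p K) 2).map (powMonoidHom p) = V (p : OK p K) 3 := by
      ext x
      constructor
      · rintro ⟨y, hy, rfl⟩
        exact pow_mem_V (p : OK p K) rfl le_rfl hy
      · intro hx
        exact V_succ_le_map_pow (p : OK p K) rfl le_rfl hx
    have hker : ((powMonoidHom p : (OK p K)ˣ →* (OK p K)ˣ).ker ⊓ V (p : OK p K) 2) = ⊥ := by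
      rw [eq_bot_iff]
      rintro x ⟨hx1, hx2⟩
      exact pow_eq_one_of_mem_V' (p : OK p K) hl0 rfl le_rfl hx2 hx1
    have h1 := relIndex_map_mul_card_ker (powMonoidHom p) (V (p : OK p K) 2) (by
      rw [hmap]; exact V_antitone _ (by norm_num))
    rw [hmap, relIndex_V_succ (p : OK p K) hl0 (by norm_num), hker, Subgroup.card_bot, mul_one,
      card_OK_quot] at h1
    exact h1.symm
  · have := V_finiteIndex (l : OK l K) 1
    have hu : IsUnit (p : OK l K) := by
      have h1 : IsUnit (p : ℤ_[l]) := by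
        rw [PadicInt.isUnit_iff, PadicInt.norm_natCast_eq_one_iff]
        exact ((Nat.coprime_primes (Fact.out : l.Prime) hp).2 (Ne.symm h))
      have h2 := h1.map (algebraMap ℤ_[l] (OK l K))
      rwa [map_natCast] at h2
    have hmap : (V (l : OK l K) 1).map (powMonoidHom p) = V (l : OK l K) 1 := by
      ext x
      constructor
      · rintro ⟨y, hy, rfl⟩
        exact pow_mem hy p
      · intro hx
        exact V_one_le_map_pow (l : OK l K) hu hx
    have hker : ((powMonoidHom p : (OK l K)ˣ →* (OK l K)ˣ).ker ⊓ V (l : OK l K) 1) = ⊥ := by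
      rw [eq_bot_iff]
      rintro x ⟨hx1, hx2⟩
      exact pow_eq_one_of_mem_V (l : OK l K) hl0 hu hx2 hx1
    have h1 := relIndex_map_mul_card_ker (powMonoidHom p) (V (l : OK l K) 1) hmap.le
    rw [hmap, Subgroup.relIndex_self, hker, Subgroup.card_bot, mul_one, one_mul] at h1
    rw [one_mul]; exact h1.symm


/-- The `p`-torsion of `Kˣ` is that of `O_Kˣ`. -/
lemma card_ker_pow_OK {p : ℕ} (hp : p ≠ 0) :
    Nat.card (powMonoidHom p : (OK l K)ˣ →* (OK l K)ˣ).ker =
      Nat.card (powMonoidHom p : Kˣ →* Kˣ).ker := by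
  have h1 : (powMonoidHom p : Kˣ →* Kˣ).ker =
      ((powMonoidHom p : (OK l K)ˣ →* (OK l K)ˣ).ker).map (unitsIncl l K) := by
    ext x
    constructor
    · intro hx
      rw [MonoidHom.mem_ker, powMonoidHom_apply] at hx
      have h2 : x ∈ (wK l K).ker := by
        rw [mem_ker_wK_iff]
        have h3 : ‖Algebra.norm ℚ_[l] (x : K)‖ ^ p = 1 := by
          rw [← norm_pow, ← map_pow, ← Units.val_pow_eq_pow_val, hx]; simp
        exact (pow_eq_one_iff_of_nonneg (norm_nonneg _) hp).1 h3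
      rw [← range_unitsIncl] at h2
      obtain ⟨u, rfl⟩ := h2
      refine ⟨u, ?_, rfl⟩
      apply unitsIncl_injective l K
      change unitsIncl l K (u ^ p) = _
      rw [map_pow, hx, map_one]
    · rintro ⟨u, hu, rfl⟩
      change unitsIncl l K u ^ p = 1
      have hu' : u ^ p = 1 := hu
      rw [← map_pow, hu', map_one]
  rw [h1]
  exact (Nat.card_congr (Subgroup.equivMapOfInjective _ _ (unitsIncl_injective l K)).toEquiv)

instance finite_ker_pow {F : Type*} [Field F] {p : ℕ} [NeZero p] :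
    Finite (powMonoidHom p : Fˣ →* Fˣ).ker := by
  have : (powMonoidHom p : Fˣ →* Fˣ).ker = rootsOfUnity p F := by
    ext x; simp [mem_rootsOfUnity]
  rw [this]; infer_instance

/-- **Index of the `p`-th powers in `Kˣ`** for a finite extension `K` of `ℚ_[l]`:
`[Kˣ : (Kˣ)^p] = p * p ^ (δ [K : ℚ_l]) * |μ_p(K)|`. -/
theorem index_range_pow {p : ℕ} (hp : p.Prime) :
    (powMonoidHom p : Kˣ →* Kˣ).range.index =
      p * (if p = l then p ^ finrank ℚ_[l] K else 1) *
        Nat.card (powMonoidHom p : Kˣ →* Kˣ).ker := by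
  have h1 := index_range_pow_eq (wK l K) (wK_ne_one l K) hp.ne_zero
  have h2 := index_range_pow_OK l K hp
  have h3 : ((wK l K).ker.map (powMonoidHom p)).relIndex (wK l K).ker =
      (powMonoidHom p : (OK l K)ˣ →* (OK l K)ˣ).range.index := by
    rw [← range_unitsIncl, MonoidHom.range_eq_map, Subgroup.map_map,
      ← Subgroup.relIndex_top_right, ← Subgroup.relIndex_map_map_of_injective _ _
        (unitsIncl_injective l K), MonoidHom.range_eq_map, Subgroup.map_map]
    congr 2
  rw [h1, h3, h2, card_ker_pow_OK l K hp.ne_zero, ← mul_assoc]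
  by_cases h : p = l
  · subst h; simp
  · simp [h]

end


end Fermat.Agent.LocalF
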