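import Mathlib
import Fermat.Agent.CFT.Chevalley
import Fermat.Agent.LocalF.Units

/-!
# The norm index of a cyclic extension of prime degree

* `card_mul_of_cyclic` : Tate's lemma for the unit group of a cyclic extension of prime degree;
* `norm_index` : for a cyclic extension `M/K` of prime degree `p` of finite extensions of `ℚ_[l]`
  one has `[Kˣ : N Mˣ] = p`.
-/

set_option autoImplicit false

open Module Fermat.Agent.CFT

namespace Fermat.Agent.LocalF

section General

variable {K M : Type} [Field K] [Field M] [Algebra K M] [FiniteDimensional K M] [IsGalois K M]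

/-- the norm on unit groups -/
noncomputable abbrev normU (K M : Type*) [Field K] [Field M] [Algebra K M] : Mˣ →* Kˣ :=
  Units.map (Algebra.norm K)

/-- the action of an automorphism on the unit group, additively -/
noncomputable def sigA (σ : M ≃ₐ[K] M) : Module.End ℤ (Additive Mˣ) :=
  (MonoidHom.toAdditive (Units.map (σ : M →* M))).toIntLinearMap

omit [FiniteDimensional K M] [IsGalois K M] in
lemma sigA_apply (σ : M ≃ₐ[K] M) (x : Mˣ) :
    sigA σ (Additive.ofMul x) = Additive.ofMul (Units.map (σ : M →* M) x) := rfl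

omit [FiniteDimensional K M] [IsGalois K M] in
lemma sigA_mul (σ τ : M ≃ₐ[K] M) : sigA (σ * τ) = sigA σ * sigA τ := rfl

omit [FiniteDimensional K M] [IsGalois K M] in
lemma sigA_one : sigA (1 : M ≃ₐ[K] M) = 1 := rfl

omit [FiniteDimensional K M] [IsGalois K M] in
lemma sigA_pow (σ : M ≃ₐ[K] M) (n : ℕ) : sigA (σ ^ n) = sigA σ ^ n := by
  induction n with
  | zero => rw [pow_zero, pow_zero, sigA_one]
  | succ n ih => rw [pow_succ, pow_succ, sigA_mul, ih]

lemma mem_inv_sigA_iff {σ : M ≃ₐ[K] M} (hσ : ∀ x, x ∈ Subgroup.zpowers σ) (x : Mˣ) :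
    Additive.ofMul x ∈ inv (sigA σ) ↔ ∃ y : Kˣ, Units.map (algebraMap K M : K →* M) y = x := by
  rw [mem_inv_iff, sigA_apply]
  constructor
  · intro h
    have h1 : σ (x : M) = x := congrArg Units.val (Additive.ofMul.injective h)
    have h2 : ∀ τ : M ≃ₐ[K] M, τ (x : M) = x := by
      intro τ
      have h3 : (Subgroup.zpowers σ) ≤ MulAction.stabilizer (M ≃ₐ[K] M) (x : M) := by
        rw [Subgroup.zpowers_le]; exact h1
      exact h3 (hσ τ)
    obtain ⟨y, hy⟩ := (IsGalois.mem_range_algebraMap_iff_fixed (x : M)).2 h2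
    have hy0 : y ≠ 0 := by rintro rfl; exact x.ne_zero (by rw [← hy, map_zero])
    exact ⟨Units.mk0 y hy0, Units.ext hy⟩
  · rintro ⟨y, rfl⟩
    apply congrArg Additive.ofMul
    ext
    simp

lemma prod_pow_eq_norm {p : ℕ} [Fact p.Prime] (hd : finrank K M = p) {σ : M ≃ₐ[K] M}
    (hσ : ∀ x, x ∈ Subgroup.zpowers σ) (x : Mˣ) :
    nrm p (sigA σ) (Additive.ofMul x) =
      Additive.ofMul (Units.map (algebraMap K M : K →* M) (normU K M x)) := by
  classical
  rw [nrm_apply]
  apply Additive.toMul.injective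
  rw [toMul_sum, toMul_ofMul]
  ext
  rw [Units.coe_prod, Units.coe_map]
  change _ = algebraMap K M (Algebra.norm K (x : M))
  rw [Algebra.norm_eq_prod_automorphisms]
  have hcard : orderOf σ = p := by
    rw [orderOf_eq_card_of_forall_mem_zpowers hσ, IsGalois.card_aut_eq_finrank, hd]
  have h1 : ∀ i, ((Additive.toMul ((sigA σ ^ i) (Additive.ofMul x)) : Mˣ) : M) = (σ ^ i) (x : M) := by
    intro i
    rw [← sigA_pow, sigA_apply]; rfl
  rw [Finset.prod_congr rfl fun i _ => h1 i]
  have := IsCyclic.image_range_orderOf hσ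
  rw [hcard] at this
  rw [← this, Finset.prod_image]
  intro i hi j hj hij
  simp only [Finset.coe_range, Set.mem_Iio] at hi hj
  rw [← hcard] at hi hj
  exact pow_injOn_Iio_orderOf hi hj hij


lemma card_HH_norm_eq_one {p : ℕ} [Fact p.Prime] (hd : finrank K M = p) {σ : M ≃ₐ[K] M}
    (hσ : ∀ x, x ∈ Subgroup.zpowers σ) :
    Nat.card (HH (lin (nrm p (sigA σ))) (lin (1 - sigA σ))) = 1 := by
  rw [Nat.card_eq_one_iff_unique]
  refine ⟨⟨fun a b => ?_⟩, ⟨0⟩⟩
  have key : ∀ a : HH (lin (nrm p (sigA σ))) (lin (1 - sigA σ)), a = 0 := by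
    intro a
    obtain ⟨x, hx, rfl⟩ := HH.mk_surj a
    rw [HH.mk_eq_zero_iff]
    obtain ⟨x, rfl⟩ := Additive.ofMul.surjective x
    change nrm p (sigA σ) (Additive.ofMul x) = 0 at hx
    rw [prod_pow_eq_norm hd hσ] at hx
    have h1 : Units.map (algebraMap K M : K →* M) (normU K M x) = 1 := hx
    have h2 : algebraMap K M (Algebra.norm K (x : M)) = 1 := congrArg Units.val h1
    have h3 : Algebra.norm K (x : M) = 1 := by
      apply (algebraMap K M).injective; rw [h2, map_one]
    have : IsCyclic (M ≃ₐ[K] M) := ⟨σ, hσ⟩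
    obtain ⟨y, hy⟩ := groupCohomology.exists_div_of_norm_eq_one hσ h3
    refine ⟨Additive.ofMul y, ?_⟩
    change Additive.ofMul y - sigA σ (Additive.ofMul y) = _
    rw [sigA_apply, ← ofMul_div]
    congr 1
    ext
    rw [Units.val_div_eq_div_val, ← hy]
    rfl
  rw [key a, key b]

lemma card_HH_eq_index {p : ℕ} [Fact p.Prime] (hd : finrank K M = p) {σ : M ≃ₐ[K] M}
    (hσ : ∀ x, x ∈ Subgroup.zpowers σ) :
    Nat.card (HH (lin (1 - sigA σ)) (lin (nrm p (sigA σ)))) = (normU K M).range.index := by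
  have h0 : ∀ y : Kˣ, lin (1 - sigA σ) (Additive.ofMul (Units.map (algebraMap K M : K →* M) y)) = 0 :=
    fun y => (mem_inv_sigA_iff hσ _).2 ⟨y, rfl⟩
  let φ : Additive Kˣ →+ HH (lin (1 - sigA σ)) (lin (nrm p (sigA σ))) :=
    { toFun := fun y => HH.mk _ _ (Additive.ofMul (Units.map (algebraMap K M : K →* M) y.toMul)) (h0 _)
      map_zero' := by
        rw [HH.mk_eq_zero_iff]
        exact ⟨0, by simp⟩
      map_add' := by
        intro x y
        rw [HH.mk_add]
        apply HH.mk_congr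
        rw [toMul_add, map_mul, ofMul_mul] }
  have hφ : Function.Surjective φ := by
    intro z
    obtain ⟨x, hx, rfl⟩ := HH.mk_surj z
    obtain ⟨x, rfl⟩ := Additive.ofMul.surjective x
    obtain ⟨y, hy⟩ := (mem_inv_sigA_iff hσ x).1 hx
    refine ⟨Additive.ofMul y, ?_⟩
    change HH.mk _ _ (Additive.ofMul (Units.map (algebraMap K M : K →* M) y)) (h0 _) = _
    apply HH.mk_congr
    rw [hy]
  have hker : φ.ker = Subgroup.toAddSubgroup (normU K M).range := by
    ext y
    obtain ⟨y, rfl⟩ := Additive.ofMul.surjective y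
    change φ (Additive.ofMul y) = 0 ↔ y ∈ (normU K M).range
    change HH.mk _ _ (Additive.ofMul (Units.map (algebraMap K M : K →* M) y)) (h0 _) = 0 ↔ _
    rw [HH.mk_eq_zero_iff]
    have hinj : Function.Injective (Units.map (algebraMap K M : K →* M)) :=
      Units.map_injective (algebraMap K M).injective
    constructor
    · rintro ⟨z, hz⟩
      obtain ⟨z, rfl⟩ := Additive.ofMul.surjective z
      change nrm p (sigA σ) (Additive.ofMul z) = _ at hz
      rw [prod_pow_eq_norm hd hσ] at hz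
      exact ⟨z, hinj (Additive.ofMul.injective hz)⟩
    · rintro ⟨z, rfl⟩
      exact ⟨Additive.ofMul z, prod_pow_eq_norm hd hσ z⟩
  rw [← Nat.card_congr (QuotientAddGroup.quotientKerEquivOfSurjective φ hφ).toEquiv, hker]
  rw [← Subgroup.index_toAddSubgroup]
  rfl

/-- `Kˣ` is the group of invariants. -/
noncomputable def invEquiv {σ : M ≃ₐ[K] M} (hσ : ∀ x, x ∈ Subgroup.zpowers σ) :
    Additive Kˣ ≃+ inv (sigA σ) :=
  AddEquiv.ofBijective
    (((MonoidHom.toAdditive (Units.map (algebraMap K M : K →* M))).codRestrict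
      (inv (sigA σ)).toAddSubgroup (fun y => (mem_inv_sigA_iff hσ _).2 ⟨y.toMul, rfl⟩) :
        Additive Kˣ →+ (inv (sigA σ)).toAddSubgroup) : Additive Kˣ →+ inv (sigA σ)) (by
    constructor
    · intro x y hxy
      have h1 := congrArg Subtype.val hxy
      exact Additive.toMul.injective (Units.map_injective (algebraMap K M).injective h1)
    · rintro ⟨x, hx⟩
      obtain ⟨x, rfl⟩ := Additive.ofMul.surjective x
      obtain ⟨y, hy⟩ := (mem_inv_sigA_iff hσ x).1 hx
      exact ⟨Additive.ofMul y, Subtype.ext (congrArg Additive.ofMul hy)⟩)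

lemma index_range_nsmul_additive (B : Type*) [CommGroup B] (p : ℕ) :
    (nsmulAddMonoidHom p : Additive B →+ Additive B).range.index =
      (powMonoidHom p : B →* B).range.index := by
  rw [← Subgroup.index_toAddSubgroup]; rfl

lemma card_ker_nsmul_additive (B : Type*) [CommGroup B] (p : ℕ) :
    Nat.card (nsmulAddMonoidHom p : Additive B →+ Additive B).ker =
      Nat.card (powMonoidHom p : B →* B).ker := rfl

lemma index_range_nsmul_congr {A B : Type*} [AddCommGroup A] [AddCommGroup B] (e : A ≃+ B) (p : ℕ) :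
    (nsmulAddMonoidHom p : A →+ A).range.index = (nsmulAddMonoidHom p : B →+ B).range.index := by
  rw [← AddSubgroup.index_map_equiv _ e]
  congr 1
  ext x
  constructor
  · rintro ⟨_, ⟨y, rfl⟩, rfl⟩
    exact ⟨e y, by simp⟩
  · rintro ⟨y, rfl⟩
    exact ⟨p • e.symm y, ⟨e.symm y, rfl⟩, by simp⟩

lemma card_ker_nsmul_congr {A B : Type*} [AddCommGroup A] [AddCommGroup B] (e : A ≃+ B) (p : ℕ) :
    Nat.card (nsmulAddMonoidHom p : A →+ A).ker = Nat.card (nsmulAddMonoidHom p : B →+ B).ker := by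
  refine Nat.card_congr (e.toEquiv.subtypeEquiv fun a => ?_)
  change p • a = 0 ↔ p • e a = 0
  rw [← map_nsmul, map_eq_zero_iff e e.injective]

/-- **Tate's lemma** for the unit group of a cyclic extension of prime degree `p`. -/
theorem card_mul_of_cyclic {p : ℕ} [Fact p.Prime] (hd : finrank K M = p)
    (hip : (powMonoidHom p : Mˣ →* Mˣ).range.index ≠ 0) :
    (normU K M).range.index ^ (p - 1) * Nat.card (powMonoidHom p : Kˣ →* Kˣ).ker ^ p *
        (powMonoidHom p : Mˣ →* Mˣ).range.index =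
      (powMonoidHom p : Kˣ →* Kˣ).range.index ^ p * Nat.card (powMonoidHom p : Mˣ →* Mˣ).ker := by
  have hcard : Nat.card (M ≃ₐ[K] M) = p := by rw [IsGalois.card_aut_eq_finrank, hd]
  have hcyc : IsCyclic (M ≃ₐ[K] M) := isCyclic_of_prime_card hcard
  obtain ⟨σ, hσ⟩ := hcyc.exists_generator
  have hσp : (sigA σ) ^ p = 1 := by
    rw [← sigA_pow, ← hcard, pow_card_eq_one', sigA_one]
  have hfin : Finite (nsmulAddMonoidHom p : Additive Mˣ →+ Additive Mˣ).ker := by
    have : NeZero p := ⟨(Fact.out : p.Prime).ne_zero⟩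
    exact (finite_ker_pow : Finite (powMonoidHom p : Mˣ →* Mˣ).ker)
  obtain ⟨-, -, -, -, h⟩ := tate_lemma p (sigA σ) hσp hfin
    (by rwa [index_range_nsmul_additive])
  rw [card_HH_norm_eq_one hd hσ, card_HH_eq_index hd hσ, one_pow, one_mul,
    ← index_range_nsmul_congr (invEquiv hσ), ← card_ker_nsmul_congr (invEquiv hσ),
    index_range_nsmul_additive, index_range_nsmul_additive, card_ker_nsmul_additive,
    card_ker_nsmul_additive] at h
  exact h

end General


section Local

/-- **Norm index theorem**: `[Kˣ : N Mˣ] = p` for a cyclic extension of prime degree `p` of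
`l`-adic fields. -/
theorem norm_index (l : ℕ) [Fact l.Prime] (K M : Type) [Field K] [Field M] [Algebra K M]
    [Algebra ℚ_[l] K] [Algebra ℚ_[l] M] [IsScalarTower ℚ_[l] K M]
    [FiniteDimensional ℚ_[l] K] [FiniteDimensional K M] [IsGalois K M]
    {p : ℕ} (hp : p.Prime) (hd : finrank K M = p) :
    (normU K M).range.index = p := by
  have : Fact p.Prime := ⟨hp⟩
  have : NeZero p := ⟨hp.ne_zero⟩
  have : FiniteDimensional ℚ_[l] M := FiniteDimensional.trans ℚ_[l] K M
  have hK := index_range_pow l K hp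
  have hM := index_range_pow l M hp
  have hKM : finrank ℚ_[l] M = finrank ℚ_[l] K * p := by rw [← hd, Module.finrank_mul_finrank]
  have hKpos : 0 < Nat.card (powMonoidHom p : Kˣ →* Kˣ).ker := Nat.card_pos
  have hMpos : 0 < Nat.card (powMonoidHom p : Mˣ →* Mˣ).ker := Nat.card_pos
  set c : ℕ := if p = l then p ^ finrank ℚ_[l] K else 1 with hc
  have hcM : (if p = l then p ^ finrank ℚ_[l] M else 1) = c ^ p := by
    rw [hc]
    split_ifs with h
    · rw [hKM, pow_mul]
    · rw [one_pow]
  have hcpos : 0 < c := by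
    rw [hc]; split_ifs
    · exact pow_pos hp.pos _
    · exact one_pos
  rw [hcM] at hM
  have h := card_mul_of_cyclic hd (by
    rw [hM]
    have := hp.pos
    positivity)
  rw [hM, hK] at h
  set x := (normU K M).range.index
  set a := Nat.card (powMonoidHom p : Kˣ →* Kˣ).ker
  set b := Nat.card (powMonoidHom p : Mˣ →* Mˣ).ker
  obtain ⟨q, hq⟩ : ∃ q, p = q + 1 := ⟨p - 1, (Nat.succ_pred_eq_of_pos hp.pos).symm⟩
  have hq0 : q ≠ 0 := by
    rintro rfl
    exact hp.one_lt.ne' hq
  have h2 : x ^ (p - 1) * (p * (a ^ p * c ^ p * b)) = p ^ (p - 1) * (p * (a ^ p * c ^ p * b)) := by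
    have h3 : p ^ (p - 1) * p = p ^ p := by
      rw [← pow_succ]; congr 1; omega
    calc x ^ (p - 1) * (p * (a ^ p * c ^ p * b)) = x ^ (p - 1) * a ^ p * (p * c ^ p * b) := by ring
      _ = (p * c * a) ^ p * b := h
      _ = p ^ p * (a ^ p * c ^ p * b) := by ring
      _ = p ^ (p - 1) * (p * (a ^ p * c ^ p * b)) := by rw [← h3]; ring
  have h4 : x ^ (p - 1) = p ^ (p - 1) := by
    refine Nat.eq_of_mul_eq_mul_right ?_ h2
    have := hp.pos
    positivity
  exact Nat.pow_left_injective (n := p - 1) (by omega) h4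

end Local

end Fermat.Agent.LocalF
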