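import Mathlib

/-!
# Linear algebra of symbols

`b : V × V → H` an alternating bilinear map over a field such that for all `x ≠ 0` the image of
`b x` is a line.  Then all these lines coincide.
-/

set_option autoImplicit false

open Module

namespace Fermat.Agent.LocalF

section LA

variable {F V H : Type*} [Field F] [AddCommGroup V] [Module F V] [AddCommGroup H] [Module F H]
  (b : V →ₗ[F] V →ₗ[F] H)

/-- A vector space is not the union of two proper subspaces. -/
lemma exists_notMem_notMem {P Q : Submodule F V} (hP : P ≠ ⊤) (hQ : Q ≠ ⊤) :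
    ∃ z, z ∉ P ∧ z ∉ Q := by
  by_contra h
  push Not at h
  obtain ⟨x, hx⟩ : ∃ x, x ∉ P := by
    by_contra h'; push Not at h'; exact hP (eq_top_iff.2 fun x _ => h' x)
  obtain ⟨y, hy⟩ : ∃ y, y ∉ Q := by
    by_contra h'; push Not at h'; exact hQ (eq_top_iff.2 fun x _ => h' x)
  have hxQ : x ∈ Q := h x hx
  have hyP : y ∈ P := by
    by_contra h'; exact hy (h y h')
  have h1 : x + y ∉ P := fun h1 => hx (by simpa using P.sub_mem h1 hyP)
  have h2 : x + y ∉ Q := fun h2 => hy (by simpa using Q.sub_mem h2 hxQ)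
  exact h2 (h _ h1)

lemma line_unique {L L' : Submodule F H} (h1 : finrank F L = 1) (h2 : finrank F L' = 1) {y : H}
    (hy : y ≠ 0) (hyL : y ∈ L) (hyL' : y ∈ L') : L = L' := by
  have h3 : F ∙ y = L := by
    have : FiniteDimensional F L := Module.finite_of_finrank_eq_succ h1
    apply Submodule.eq_of_le_of_finrank_eq
    · rw [Submodule.span_singleton_le_iff_mem]; exact hyL
    · rw [finrank_span_singleton hy, h1]
  have h4 : F ∙ y = L' := by
    have : FiniteDimensional F L' := Module.finite_of_finrank_eq_succ h2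
    apply Submodule.eq_of_le_of_finrank_eq
    · rw [Submodule.span_singleton_le_iff_mem]; exact hyL'
    · rw [finrank_span_singleton hy, h2]
  rw [← h3, h4]

/-- If every nonzero `x` has `range (b x)` a line and `b` is skew symmetric, then all lines
coincide. -/
theorem exists_common_line (hsk : ∀ x y, b x y = - b y x)
    (hb : ∀ x, x ≠ 0 → finrank F (LinearMap.range (b x)) = 1) {x y : V} (hx : x ≠ 0)
    (hy : y ≠ 0) : LinearMap.range (b x) = LinearMap.range (b y) := by
  have key : ∀ {x z : V}, b x z ≠ 0 → LinearMap.range (b x) = LinearMap.range (b z) := by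
    intro x z h
    have hx : x ≠ 0 := by rintro rfl; simp at h
    have hz : z ≠ 0 := by rintro rfl; simp at h
    refine line_unique (hb x hx) (hb z hz) h ⟨z, rfl⟩ ?_
    rw [hsk]
    exact ⟨-x, by simp⟩
  have hne : ∀ {x : V}, x ≠ 0 → LinearMap.ker (b x) ≠ ⊤ := by
    intro x hx h
    rw [LinearMap.ker_eq_top] at h
    have := hb x hx
    rw [h, LinearMap.range_zero, finrank_bot] at this
    exact zero_ne_one this
  obtain ⟨z, hz1, hz2⟩ := exists_notMem_notMem (hne hx) (hne hy)
  rw [key (x := x) (z := z) hz1, key (x := y) (z := z) hz2]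

/-- If `x₀ ≠ 0`, `dim V ≥ 2`, there are `x`, `y ∈ ker (b x₀)` such that `b x y ≠ 0`. -/
theorem exists_ne_zero_of_ker (hsk : ∀ x y, b x y = - b y x)
    (hb : ∀ x, x ≠ 0 → finrank F (LinearMap.range (b x)) = 1)
    {x₀ : V} (hx₀ : x₀ ≠ 0) {x : V} (hx : x ∉ F ∙ x₀) : ∃ y ∈ LinearMap.ker (b x₀), b x y ≠ 0 := by
  by_contra h
  push Not at h
  have hx0 : x ≠ 0 := by rintro rfl; exact hx (Submodule.zero_mem _)
  -- pick `z` with `b x₀ z ≠ 0`
  obtain ⟨z, hz⟩ : ∃ z, b x₀ z ≠ 0 := by
    by_contra h'
    push Not at h'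
    have h1 : b x₀ = 0 := LinearMap.ext h'
    have := hb x₀ hx₀
    rw [h1, LinearMap.range_zero, finrank_bot] at this
    exact zero_ne_one this
  have hline := exists_common_line b hsk hb hx0 hx₀
  -- `b x z = c • b x₀ z`
  obtain ⟨c, hc⟩ : ∃ c : F, b x z = c • b x₀ z := by
    have h1 : b x z ∈ LinearMap.range (b x₀) := by rw [← hline]; exact ⟨z, rfl⟩
    have h2 : F ∙ (b x₀ z) = LinearMap.range (b x₀) := by
      have := hb x₀ hx₀
      have : FiniteDimensional F (LinearMap.range (b x₀)) := Module.finite_of_finrank_eq_succ this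
      apply Submodule.eq_of_le_of_finrank_eq
      · rw [Submodule.span_singleton_le_iff_mem]; exact ⟨z, rfl⟩
      · rw [finrank_span_singleton hz, hb x₀ hx₀]
    rw [← h2, Submodule.mem_span_singleton] at h1
    obtain ⟨c, hc⟩ := h1
    exact ⟨c, hc.symm⟩
  have h0 : ∀ y, b (x - c • x₀) y = 0 := by
    intro y
    -- `y = a z + k` with `k ∈ ker`
    obtain ⟨a, ha⟩ : ∃ a : F, b x₀ y = a • b x₀ z := by
      have h2 : F ∙ (b x₀ z) = LinearMap.range (b x₀) := by
        have := hb x₀ hx₀
        have : FiniteDimensional F (LinearMap.range (b x₀)) := Module.finite_of_finrank_eq_succ this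
        apply Submodule.eq_of_le_of_finrank_eq
        · rw [Submodule.span_singleton_le_iff_mem]; exact ⟨z, rfl⟩
        · rw [finrank_span_singleton hz, hb x₀ hx₀]
      have h1 : b x₀ y ∈ F ∙ (b x₀ z) := by rw [h2]; exact ⟨y, rfl⟩
      rw [Submodule.mem_span_singleton] at h1
      obtain ⟨a, ha⟩ := h1
      exact ⟨a, ha.symm⟩
    have hk : y - a • z ∈ LinearMap.ker (b x₀) := by
      rw [LinearMap.mem_ker, map_sub, map_smul, ha, sub_self]
    have h3 := h _ hk
    rw [map_sub, map_smul, sub_eq_zero] at h3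
    rw [map_sub, map_smul, LinearMap.sub_apply, LinearMap.smul_apply, ha, h3, hc, smul_comm, sub_self]
  have hne : x - c • x₀ ≠ 0 := by
    intro h'
    apply hx
    rw [sub_eq_zero] at h'
    rw [h']
    exact Submodule.smul_mem _ _ (Submodule.mem_span_singleton_self _)
  have h4 : b (x - c • x₀) = 0 := LinearMap.ext h0
  have := hb _ hne
  rw [h4, LinearMap.range_zero, finrank_bot] at this
  exact zero_ne_one this

end LA

end Fermat.Agent.LocalF
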