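import Fermat.Agent.CFT.Symbol
import Fermat.Agent.CFT.GalLevels
import Fermat.Agent.LocalF.NormIndex
import Fermat.Agent.LocalF.SymbolLA

/-!
# Abstract local Galois groups

`LocGal l 𝓛 Ω` : the group `G` with its level structure acts on the field `Ω ⊇ ℚ_[l]` through
(a group isomorphic to) an open subgroup of `Gal(Ω/ℚ_[l])`.
-/

set_option autoImplicit false

open Module Fermat.Agent.CFT

namespace Fermat.Agent.LocalF

section Defs

variable {G : Type} [Group G] {Ω : Type} [Field Ω] [MulSemiringAction G Ω]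

/-- nonzero elements fixed by a subgroup -/
def FU (Ω : Type) [Field Ω] [MulSemiringAction G Ω] (U : Subgroup G) : Subgroup Ωˣ where
  carrier := {x | ∀ g ∈ U, g • (x : Ω) = x}
  one_mem' := fun g _ => by simp
  mul_mem' := fun {a b} ha hb g hg => by
    rw [Units.val_mul, smul_mul', ha g hg, hb g hg]
  inv_mem' := fun {a} ha g hg => by
    rw [Units.val_inv_eq_inv_val, smul_inv'', ha g hg]

lemma mem_FU {U : Subgroup G} {x : Ωˣ} : x ∈ FU Ω U ↔ ∀ g ∈ U, g • (x : Ω) = x := Iff.rfl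

/-- the homomorphism `a ↦ ∏_{i<p} σ^i a` -/
noncomputable def normHom (Ω : Type) [Field Ω] [MulSemiringAction G Ω] (σ : G) (p : ℕ) : Ωˣ →* Ωˣ :=
  ∏ i ∈ Finset.range p, Units.map ((MulSemiringAction.toRingHom G Ω (σ ^ i) : Ω →+* Ω) : Ω →* Ω)

lemma coe_normHom (σ : G) (p : ℕ) (a : Ωˣ) :
    ((normHom Ω σ p a : Ωˣ) : Ω) = ∏ i ∈ Finset.range p, σ ^ i • (a : Ω) := by
  rw [normHom, MonoidHom.finsetProd_apply, Units.coe_prod]
  rfl

end Defs

section LocGal

variable {G : Type} [Group G]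

/-- `G` acts on `Ω` through an open subgroup of `Gal(Ω/ℚ_[l])`. -/
structure LocGal (l : ℕ) [Fact l.Prime] (𝓛 : Levels G) (Ω : Type) [Field Ω] [MulSemiringAction G Ω]
    [Algebra ℚ_[l] Ω] [IsGalois ℚ_[l] Ω] : Prop where
  isGal : IsGal 𝓛 Ω
  exists_hom : ∃ φ : G →* (Ω ≃ₐ[ℚ_[l]] Ω), (∀ g x, φ g x = g • x) ∧ φ.range ∈ galLevels ℚ_[l] Ω

variable {l : ℕ} [Fact l.Prime] {𝓛 : Levels G} {Ω : Type} [Field Ω] [MulSemiringAction G Ω]
  [Algebra ℚ_[l] Ω] [IsGalois ℚ_[l] Ω]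

lemma LocGal.map_mem (h : LocGal l 𝓛 Ω) {φ : G →* (Ω ≃ₐ[ℚ_[l]] Ω)} (hφ : ∀ g x, φ g x = g • x)
    (hr : φ.range ∈ galLevels ℚ_[l] Ω) {U : Subgroup G} (hU : U ∈ 𝓛) :
    U.map φ ∈ galLevels ℚ_[l] Ω := by
  obtain ⟨s, hs, hs'⟩ := h.isGal.sep U hU
  have := hs.to_subtype
  choose H hH hH' using fun x : s => exists_level_smul_eq (k := ℚ_[l]) (x : Ω)
  refine Levels.up_mem (Levels.inf_mem hr (Levels.iInf_mem hH)) ?_
  rintro _ ⟨⟨g, rfl⟩, hg⟩
  refine ⟨g, hs' g fun x hx => ?_, rfl⟩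
  rw [← hφ]
  exact hH' ⟨x, hx⟩ _ ((Subgroup.mem_iInf.1 hg) ⟨x, hx⟩)

/-- passage to subgroups -/
lemma LocGal.restrict (h : LocGal l 𝓛 Ω) {U : Subgroup G} (hU : U ∈ 𝓛) :
    LocGal l (𝓛.restrict U) Ω where
  isGal := h.isGal.restrict U
  exists_hom := by
    obtain ⟨φ, hφ, hr⟩ := h.exists_hom
    refine ⟨φ.comp U.subtype, fun g x => hφ g x, ?_⟩
    have : (φ.comp U.subtype).range = U.map φ := by
      rw [MonoidHom.range_comp, Subgroup.range_subtype]
    rw [this]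
    exact h.map_mem hφ hr hU

end LocGal


section Fixed

variable {l : ℕ} [Fact l.Prime] {Ω : Type} [Field Ω] [Algebra ℚ_[l] Ω] [IsGalois ℚ_[l] Ω]

lemma finiteDimensional_fixedField {U : Subgroup (Ω ≃ₐ[ℚ_[l]] Ω)} (hU : U ∈ galLevels ℚ_[l] Ω) :
    FiniteDimensional ℚ_[l] (IntermediateField.fixedField U) := by
  rw [mem_galLevels_iff_isOpen] at hU
  have hcl : IsClosed (U : Set (Ω ≃ₐ[ℚ_[l]] Ω)) := Subgroup.isClosed_of_isOpen U hU
  have hF : (IntermediateField.fixedField U).fixingSubgroup = U :=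
    InfiniteGalois.fixingSubgroup_fixedField ⟨U, hcl⟩
  rw [← InfiniteGalois.isOpen_iff_finite, hF]
  exact hU

lemma fixingSubgroup_fixedField' {U : Subgroup (Ω ≃ₐ[ℚ_[l]] Ω)} (hU : U ∈ galLevels ℚ_[l] Ω) :
    (IntermediateField.fixedField U).fixingSubgroup = U := by
  rw [mem_galLevels_iff_isOpen] at hU
  exact InfiniteGalois.fixingSubgroup_fixedField ⟨U, Subgroup.isClosed_of_isOpen U hU⟩

end Fixed

section Cyclic

variable {G : Type} [Group G]
variable {l : ℕ} [Fact l.Prime] {𝓛 : Levels G} {Ω : Type} [Field Ω] [MulSemiringAction G Ω]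
  [Algebra ℚ_[l] Ω] [IsGalois ℚ_[l] Ω]

lemma char_one {p : ℕ} {κ : G → ZMod p} (hκm : ∀ g h, κ (g * h) = κ g + κ h) : κ 1 = 0 := by
  simpa using hκm 1 1

lemma char_inv {p : ℕ} {κ : G → ZMod p} (hκm : ∀ g h, κ (g * h) = κ g + κ h) (g : G) :
    κ g⁻¹ = - κ g := by
  have := hκm g g⁻¹
  rw [mul_inv_cancel, char_one hκm] at this
  exact (neg_eq_of_add_eq_zero_right this.symm).symm

lemma char_pow {p : ℕ} {κ : G → ZMod p} (hκm : ∀ g h, κ (g * h) = κ g + κ h) (g : G) (n : ℕ) :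
    κ (g ^ n) = n * κ g := by
  induction n with
  | zero => simpa using char_one hκm
  | succ n ih => rw [pow_succ, hκm, ih]; push_cast; ring

lemma char_normal {p : ℕ} {κ : G → ZMod p} (hκm : ∀ g h, κ (g * h) = κ g + κ h)
    {H : Subgroup G} (hκH : ∀ g, g ∈ H ↔ κ g = 0) : H.Normal := ⟨fun n hn g => by
  rw [hκH] at hn ⊢
  rw [hκm, hκm, hn, add_zero, char_inv hκm]; ring⟩

lemma char_mem {p : ℕ} {κ : G → ZMod p} (hκ : 𝓛.LC κ) (hκm : ∀ g h, κ (g * h) = κ g + κ h)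
    {H : Subgroup G} (hκH : ∀ g, g ∈ H ↔ κ g = 0) : H ∈ 𝓛 := by
  obtain ⟨J, hJ, hJ'⟩ := hκ
  refine Levels.up_mem hJ fun g hg => (hκH g).2 ?_
  have := hJ' 1 g hg
  rw [one_mul] at this
  rw [this]; exact char_one hκm

/-- **Norm index theorem**, group theoretic form. -/
theorem LocGal.norm_relIndex {p : ℕ} [Fact p.Prime] (h : LocGal l 𝓛 Ω) {κ : G → ZMod p}
    (hκ : 𝓛.LC κ) (hκm : ∀ g h, κ (g * h) = κ g + κ h) {H : Subgroup G}
    (hκH : ∀ g, g ∈ H ↔ κ g = 0) {σ : G} (hσ : κ σ = 1) :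
    ((FU Ω H).map (normHom Ω σ p)).relIndex (FU Ω (⊤ : Subgroup G)) = p := by
  have hHn := char_normal hκm hκH
  have hH := char_mem hκ hκm hκH
  obtain ⟨φ, hφ, hr⟩ := h.exists_hom
  have hr' := h.map_mem hφ hr hH
  let K : IntermediateField ℚ_[l] Ω := IntermediateField.fixedField φ.range
  let M : IntermediateField ℚ_[l] Ω := IntermediateField.fixedField (H.map φ)
  have hKfin : FiniteDimensional ℚ_[l] K := finiteDimensional_fixedField hr
  have hMfin : FiniteDimensional ℚ_[l] M := finiteDimensional_fixedField hr'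
  have hK : ∀ x : Ω, x ∈ K ↔ ∀ g : G, g • x = x := by
    intro x
    constructor
    · intro hx g
      rw [← hφ]; exact hx ⟨φ g, ⟨g, rfl⟩⟩
    · rintro hx ⟨_, ⟨g, rfl⟩⟩
      exact (hφ g x).trans (hx g)
  have hM : ∀ x : Ω, x ∈ M ↔ ∀ g ∈ H, g • x = x := by
    intro x
    constructor
    · intro hx g hg
      rw [← hφ]; exact hx ⟨φ g, ⟨g, hg, rfl⟩⟩
    · rintro hx ⟨_, ⟨g, hg, rfl⟩⟩
      exact (hφ g x).trans (hx g hg)
  have hKM : K ≤ M := fun x hx => (hM x).2 fun g _ => (hK x).1 hx g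
  let _ : Algebra K M := (IntermediateField.inclusion hKM).toRingHom.toAlgebra
  have hKMc : ∀ x : K, ((algebraMap K M x : M) : Ω) = x := fun x => rfl
  have : IsScalarTower ℚ_[l] K M := IsScalarTower.of_algebraMap_eq fun x => by
    apply Subtype.ext; rfl
  have : FiniteDimensional K M := FiniteDimensional.right ℚ_[l] K M
  -- the automorphism of `M` induced by an element of `G`
  have hstab : ∀ (g : G) (x : M), g • (x : Ω) ∈ M := by
    intro g x
    rw [hM]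
    intro h' hh'
    have h1 : g⁻¹ * h' * g ∈ H := by simpa using hHn.conj_mem h' hh' g⁻¹
    have h2 := (hM _).1 x.2 _ h1
    rw [mul_assoc, mul_smul, inv_smul_eq_iff, mul_smul] at h2
    exact h2
  let τ : G → (M ≃ₐ[K] M) := fun g =>
    { toFun := fun x => ⟨g • (x : Ω), hstab g x⟩
      invFun := fun x => ⟨g⁻¹ • (x : Ω), hstab g⁻¹ x⟩
      left_inv := fun x => Subtype.ext (inv_smul_smul g (x : Ω))
      right_inv := fun x => Subtype.ext (smul_inv_smul g (x : Ω))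
      map_mul' := fun x y => Subtype.ext (smul_mul' g (x : Ω) y)
      map_add' := fun x y => Subtype.ext (smul_add g (x : Ω) y)
      commutes' := fun x => Subtype.ext ((hK x).1 x.2 g) }
  have hτ : ∀ (g : G) (x : M), ((τ g x : M) : Ω) = g • (x : Ω) := fun g x => rfl
  have hτm : ∀ g g', τ (g * g') = τ g * τ g' := by
    intro g g'
    ext x
    simp only [AlgEquiv.mul_apply, hτ, mul_smul]
  have hτ1 : τ 1 = 1 := by
    ext x; simp only [hτ, one_smul, AlgEquiv.one_apply]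
  have hτpow : ∀ n : ℕ, τ σ ^ n = τ (σ ^ n) := by
    intro n
    induction n with
    | zero => rw [pow_zero, pow_zero, hτ1]
    | succ n ih => rw [pow_succ, ih, pow_succ, hτm]
  have hτH : ∀ g ∈ H, τ g = 1 := by
    intro g hg
    ext x
    simp only [hτ, AlgEquiv.one_apply]
    exact (hM _).1 x.2 g hg
  have hσp : τ σ ^ p = 1 := by
    rw [hτpow]
    apply hτH
    rw [hκH, char_pow hκm]
    simp
  have hσne : τ σ ≠ 1 := by
    intro h1
    -- `σ` fixes `M`, hence `φ σ ∈ φ H`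
    have h2 : φ σ ∈ M.fixingSubgroup := by
      rw [IntermediateField.mem_fixingSubgroup_iff]
      intro x hx
      rw [hφ]
      have := congrArg (fun f : M ≃ₐ[K] M => ((f ⟨x, hx⟩ : M) : Ω)) h1
      simpa [hτ] using this
    rw [fixingSubgroup_fixedField' hr'] at h2
    obtain ⟨g, hg, hgσ⟩ := h2
    obtain ⟨s, -, hs⟩ := h.isGal.sep H hH
    have h3 : g⁻¹ * σ ∈ H := by
      apply hs
      intro x _
      rw [mul_smul, inv_smul_eq_iff, ← hφ, ← hφ, hgσ]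
    have h4 : σ ∈ H := by
      have := H.mul_mem hg h3
      rwa [mul_inv_cancel_left] at this
    rw [hκH, hσ] at h4
    exact one_ne_zero h4
  have hord : orderOf (τ σ) = p := orderOf_eq_prime hσp hσne
  have : Finite (Subgroup.zpowers (τ σ)) := by
    apply Nat.finite_of_card_ne_zero
    rw [Nat.card_zpowers, hord]
    exact (Fact.out : p.Prime).ne_zero
  have hgg : IsGaloisGroup (Subgroup.zpowers (τ σ)) K M :=
    { faithful := inferInstance
      commutes := inferInstance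
      isInvariant := ⟨fun x hx => by
        have h1 : (x : Ω) ∈ K := by
          rw [hK]
          intro g
          have h2 : τ σ x = x := hx ⟨τ σ, Subgroup.mem_zpowers _⟩
          have h3 : σ • (x : Ω) = x := congrArg Subtype.val h2
          -- `g = σ ^ n h`
          have h4 : (σ ^ (κ g).val)⁻¹ * g ∈ H := by
            rw [hκH, hκm, char_inv hκm, char_pow hκm, hσ]; simp
          have h5 := (hM _).1 x.2 _ h4
          rw [mul_smul, inv_smul_eq_iff] at h5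
          rw [h5]
          have h6 : ∀ n : ℕ, σ ^ n • (x : Ω) = x := by
            intro n
            induction n with
            | zero => rw [pow_zero, one_smul]
            | succ n ih => rw [pow_succ, mul_smul, h3, ih]
          exact h6 _
        exact ⟨⟨x, h1⟩, rfl⟩⟩ }
  have hcard : finrank K M = p := by
    rw [← IsGaloisGroup.card_eq_finrank (Subgroup.zpowers (τ σ)) K M, Nat.card_zpowers, hord]
  have : IsGalois K M := IsGaloisGroup.isGalois (Subgroup.zpowers (τ σ)) K M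
  have hidx := norm_index l K M (Fact.out : p.Prime) hcard
  -- generator
  have hgen : ∀ x : M ≃ₐ[K] M, x ∈ Subgroup.zpowers (τ σ) := by
    have h1 : (Subgroup.zpowers (τ σ)) = ⊤ := by
      apply Subgroup.eq_top_of_card_eq
      rw [Nat.card_zpowers, hord, IsGalois.card_aut_eq_finrank, hcard]
    intro x
    rw [h1]; trivial
  -- comparison
  let ιK : (K)ˣ →* Ωˣ := Units.map (K.val : K →* Ω)
  let ιM : (M)ˣ →* Ωˣ := Units.map (M.val : M →* Ω)
  have hιK : Function.Injective ιK := Units.map_injective Subtype.val_injective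
  have hrK : FU Ω (⊤ : Subgroup G) = ιK.range := by
    ext x
    constructor
    · intro hx
      have h1 : (x : Ω) ∈ K := (hK _).2 fun g => hx g trivial
      have h2 : ((x⁻¹ : Ωˣ) : Ω) ∈ K := (hK _).2 fun g => (inv_mem hx : x⁻¹ ∈ FU Ω ⊤) g trivial
      exact ⟨⟨⟨x, h1⟩, ⟨_, h2⟩, Subtype.ext (by simp), Subtype.ext (by simp)⟩, Units.ext rfl⟩
    · rintro ⟨u, rfl⟩ g -
      exact (hK _).1 (u : K).2 g
  have hrM : FU Ω H = ιM.range := by
    ext x
    constructor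
    · intro hx
      have h1 : (x : Ω) ∈ M := (hM _).2 fun g hg => hx g hg
      have h2 : ((x⁻¹ : Ωˣ) : Ω) ∈ M := (hM _).2 fun g hg => (inv_mem hx : x⁻¹ ∈ FU Ω H) g hg
      exact ⟨⟨⟨x, h1⟩, ⟨_, h2⟩, Subtype.ext (by simp), Subtype.ext (by simp)⟩, Units.ext rfl⟩
    · rintro ⟨u, rfl⟩ g hg
      exact (hM _).1 (u : M).2 g hg
  have hnorm : ∀ a : Mˣ, ιK (normU K M a) = normHom Ω σ p (ιM a) := by
    intro a
    have h1 := prod_pow_eq_norm hcard hgen a
    rw [nrm_apply] at h1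
    have h2 := congrArg (fun z : Additive Mˣ => (((z.toMul : Mˣ) : M) : Ω)) h1
    simp only [toMul_sum, toMul_ofMul, Units.coe_prod, Units.coe_map] at h2
    apply Units.ext
    rw [coe_normHom]
    have h3 : ((ιK (normU K M a) : Ωˣ) : Ω) = ((algebraMap K M (Algebra.norm K (a : M)) : M) : Ω) := rfl
    rw [h3]
    have h4 : ((algebraMap K M (Algebra.norm K (a : M)) : M) : Ω) =
      ((∏ i ∈ Finset.range p, ((Additive.toMul ((sigA (τ σ) ^ i) (Additive.ofMul a)) : Mˣ) : M) : M) : Ω) :=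
      h2.symm
    rw [h4]
    have h5 : ∀ i, ((Additive.toMul ((sigA (τ σ) ^ i) (Additive.ofMul a)) : Mˣ) : M) = (τ σ ^ i) (a : M) := by
      intro i
      rw [← sigA_pow, sigA_apply]; rfl
    rw [Finset.prod_congr rfl fun i _ => h5 i]
    have h6 := map_prod M.val (fun i => (τ σ ^ i) (a : M)) (Finset.range p)
    refine h6.trans (Finset.prod_congr rfl fun i _ => ?_)
    rw [hτpow]
    rfl
  have hmap : (FU Ω H).map (normHom Ω σ p) = ((normU K M).range).map ιK := by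
    rw [hrM]
    ext x
    constructor
    · rintro ⟨_, ⟨a, rfl⟩, rfl⟩
      exact ⟨_, ⟨a, rfl⟩, hnorm a⟩
    · rintro ⟨_, ⟨a, rfl⟩, rfl⟩
      exact ⟨_, ⟨a, rfl⟩, (hnorm a).symm⟩
  rw [hmap, hrK, MonoidHom.range_eq_map ιK, Subgroup.relIndex_map_map_of_injective _ _ hιK,
    Subgroup.relIndex_top_right]
  exact hidx

end Cyclic


section Symbols

variable {G : Type} [Group G] {𝓛 : Levels G} {Ω : Type} [Field Ω] [MulSemiringAction G Ω]
variable {p : ℕ} [Fact p.Prime]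

instance : NeZero p := ⟨(Fact.out : p.Prime).ne_zero⟩

variable (𝓛 p) in
/-- The cup product of characters as a bilinear map. -/
noncomputable def sym : Z1 𝓛 (triv p G) →ₗ[ZMod p] Z1 𝓛 (triv p G) →ₗ[ZMod p] H2 𝓛 (triv p G) :=
  LinearMap.mk₂ (ZMod p)
    (fun κ lam => H2.mk 𝓛 (triv p G) ⟨cup κ lam, cup_mem_Z2 κ.2.1 lam.2.1
      (fun g h => (κ.2.2 g h).trans (add_comm _ _)) (fun g h => (lam.2.2 g h).trans (add_comm _ _))⟩)
    (fun κ κ' lam => by
      rw [← map_add]; congr 1; apply Subtype.ext; ext g h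
      simp [cup, add_mul])
    (fun c κ lam => by
      rw [← map_smul]; congr 1; apply Subtype.ext; ext g h
      simp [cup, mul_assoc])
    (fun κ lam lam' => by
      rw [← map_add]; congr 1; apply Subtype.ext; ext g h
      simp [cup, mul_add])
    (fun c κ lam => by
      rw [← map_smul]; congr 1; apply Subtype.ext; ext g h
      simp [cup, mul_left_comm])

lemma Z1_map_mul (κ : Z1 𝓛 (triv p G)) (g h : G) : (κ : G → ZMod p) (g * h) = κ.1 g + κ.1 h :=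
  (κ.2.2 g h).trans (add_comm _ _)

lemma sym_eq_zero_iff (κ lam : Z1 𝓛 (triv p G)) :
    sym 𝓛 p κ lam = 0 ↔ cup (κ : G → ZMod p) lam ∈ B2 𝓛 (triv p G) := H2.mk_eq_zero

lemma sym_skew (κ lam : Z1 𝓛 (triv p G)) : sym 𝓛 p κ lam = - sym 𝓛 p lam κ := by
  rw [eq_neg_iff_add_eq_zero]
  change H2.mk 𝓛 (triv p G) _ + H2.mk 𝓛 (triv p G) _ = 0
  rw [← map_add, H2.mk_eq_zero]
  change cup (κ : G → ZMod p) lam + cup (lam : G → ZMod p) κ ∈ _
  rw [cup_add_cup_swap (Z1_map_mul κ) (Z1_map_mul lam)]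
  exact mem_B2.2 ⟨_, (κ.2.1.comp₂ lam.2.1 (· * ·)).comp (fun x => - x), rfl⟩

lemma sym_self (hp : p ≠ 2) (κ : Z1 𝓛 (triv p G)) : sym 𝓛 p κ κ = 0 :=
  (sym_eq_zero_iff κ κ).2 (cup_self_mem_B2 hp κ.2.1 (Z1_map_mul κ))

variable {ζ : Ω} (hζ : IsPrimitiveRoot ζ p) (hG : IsGal 𝓛 Ω) (hζG : ∀ g : G, g • ζ = ζ)
  (hdiv : ∀ w : Ω, w ≠ 0 → ∃ v : Ω, v ^ p = w)

/-- a chosen `p`-th root -/
noncomputable def rt {p : ℕ} (hdiv : ∀ w : Ω, w ≠ 0 → ∃ v : Ω, v ^ p = w) (x : Ωˣ) : Ω :=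
  (hdiv x x.ne_zero).choose

omit [Fact p.Prime] in
lemma rt_pow (x : Ωˣ) : (rt hdiv x) ^ p = x := (hdiv x x.ne_zero).choose_spec

lemma rt_ne_zero (x : Ωˣ) : rt hdiv x ≠ 0 := by
  intro h
  have := rt_pow hdiv x
  rw [h, zero_pow (NeZero.ne p)] at this
  exact x.ne_zero this.symm

omit [Fact p.Prime] in
lemma rt_fix (x : FU Ω (⊤ : Subgroup G)) (g : G) : g • (rt hdiv x) ^ p = (rt hdiv x) ^ p := by
  rw [rt_pow]; exact x.2 g trivial

/-- The Kummer map from the fixed units to characters. -/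
noncomputable def kumV : FU Ω (⊤ : Subgroup G) →* Multiplicative (Z1 𝓛 (triv p G)) where
  toFun x := Multiplicative.ofAdd ⟨kummer p ζ (rt hdiv x),
        kummer_LC hζ hG (rt_ne_zero hdiv _) hζG (rt_fix hdiv x),
        fun g h => (kummer_map_mul hζ (rt_ne_zero hdiv _) (hζG g) (rt_fix hdiv x g)
          (rt_fix hdiv x h)).trans (add_comm _ _)⟩
  map_one' := by
    rw [ofAdd_eq_one]
    apply Subtype.ext
    funext g
    change kummer p ζ (rt hdiv ((1 : FU Ω (⊤ : Subgroup G)) : Ωˣ)) g = 0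
    have h1 : (rt hdiv ((1 : FU Ω (⊤ : Subgroup G)) : Ωˣ)) ^ p = (1 : Ω) ^ p := by
      rw [rt_pow]; simp
    rw [kummer_eq_of_pow_eq hζ (rt_ne_zero hdiv _) h1 (hζG g) (rt_fix hdiv 1 g)]
    exact kummer_of_fixed hζ one_ne_zero (smul_one g)
  map_mul' := by
    intro x y
    rw [← ofAdd_add]
    congr 1
    apply Subtype.ext
    funext g
    change kummer p ζ (rt hdiv ((x * y : FU Ω (⊤ : Subgroup G)) : Ωˣ)) g =
      kummer p ζ (rt hdiv x) g + kummer p ζ (rt hdiv y) g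
    have h1 : (rt hdiv ((x * y : FU Ω (⊤ : Subgroup G)) : Ωˣ)) ^ p = (rt hdiv x * rt hdiv y) ^ p := by
      rw [rt_pow, mul_pow, rt_pow, rt_pow]; simp
    rw [kummer_eq_of_pow_eq hζ (rt_ne_zero hdiv _) h1 (hζG g) (rt_fix hdiv _ g),
      kummer_mul hζ (rt_ne_zero hdiv _) (rt_ne_zero hdiv _) (rt_fix hdiv x g) (rt_fix hdiv y g)]

lemma kumV_apply (x : FU Ω (⊤ : Subgroup G)) {y : Ω} (hy : y ^ p = ((x : Ωˣ) : Ω)) (g : G) :
    ((kumV hζ hG hζG hdiv x).toAdd : G → ZMod p) g = kummer p ζ y g := by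
  change kummer p ζ (rt hdiv x) g = _
  exact kummer_eq_of_pow_eq hζ (rt_ne_zero hdiv _) (by rw [rt_pow, hy]) (hζG g) (rt_fix hdiv x g)

lemma kumV_apply' (x : FU Ω (⊤ : Subgroup G)) :
    ((kumV hζ hG hζG hdiv x).toAdd : G → ZMod p) = kummer p ζ (rt hdiv x) := rfl

lemma kumV_surjective : Function.Surjective (kumV (𝓛 := 𝓛) hζ hG hζG hdiv) := by
  intro κ
  obtain ⟨y, hy0, hy, hκ⟩ := exists_kummer_eq hζ hG hζG κ.toAdd.2.1 (Z1_map_mul κ.toAdd)
  refine ⟨⟨Units.mk0 (y ^ p) (pow_ne_zero _ hy0), fun g _ => hy g⟩, ?_⟩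
  apply Multiplicative.toAdd.injective
  apply Subtype.ext
  funext g
  rw [kumV_apply hζ hG hζG hdiv _ (y := y) rfl, ← hκ]

lemma kumV_eq_one_iff (x : FU Ω (⊤ : Subgroup G)) :
    kumV (𝓛 := 𝓛) hζ hG hζG hdiv x = 1 ↔ ∃ z : FU Ω (⊤ : Subgroup G), z ^ p = x := by
  constructor
  · intro h
    have h1 : ∀ g : G, kummer p ζ (rt hdiv x) g = 0 := fun g =>
      congrFun (congrArg (fun w : Multiplicative (Z1 𝓛 (triv p G)) => (w.toAdd : G → ZMod p)) h) g
    refine ⟨⟨Units.mk0 (rt hdiv x) (rt_ne_zero hdiv _), fun g _ =>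
      (kummer_eq_zero_iff hζ (rt_ne_zero hdiv _) (rt_fix hdiv x g)).1 (h1 g)⟩, ?_⟩
    apply Subtype.ext
    apply Units.ext
    exact rt_pow hdiv _
  · rintro ⟨z, rfl⟩
    apply Multiplicative.toAdd.injective
    apply Subtype.ext
    funext g
    rw [kumV_apply hζ hG hζG hdiv _ (y := ((z : Ωˣ) : Ω)) (by simp)]
    exact kummer_of_fixed hζ (Units.ne_zero _) (z.2 g trivial)

/-- the kernel of the symbol with `κ` is the norm group -/
lemma sym_kumV_eq_zero_iff {κ : Z1 𝓛 (triv p G)} {H : Subgroup G}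
    (hκH : ∀ g, g ∈ H ↔ (κ : G → ZMod p) g = 0) {σ : G} (hσ : (κ : G → ZMod p) σ = 1)
    (x : FU Ω (⊤ : Subgroup G)) :
    sym 𝓛 p κ (kumV hζ hG hζG hdiv x).toAdd = 0 ↔ (x : Ωˣ) ∈ (FU Ω H).map (normHom Ω σ p) := by
  rw [sym_eq_zero_iff, kumV_apply', cup_mem_B2_iff hζ hG hζG hdiv κ.2.1 (Z1_map_mul κ) hκH hσ
    (rt_ne_zero hdiv _) (rt_fix hdiv x), rt_pow]
  constructor
  · rintro ⟨a, ha, hax⟩
    have ha0 : a ≠ 0 := by
      rintro rfl
      have : ∏ i ∈ Finset.range p, σ ^ i • (0 : Ω) = 0 :=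
        Finset.prod_eq_zero (Finset.mem_range.2 (Fact.out : p.Prime).pos) (smul_zero _)
      rw [this] at hax
      exact Units.ne_zero _ hax.symm
    refine ⟨Units.mk0 a ha0, ha, Units.ext ?_⟩
    rw [coe_normHom]; exact hax
  · rintro ⟨a, ha, hax⟩
    refine ⟨a, ha, ?_⟩
    rw [← coe_normHom, hax]

/-- the kernel of a character -/
def kerZ1 (κ : Z1 𝓛 (triv p G)) : Subgroup G where
  carrier := {g | (κ : G → ZMod p) g = 0}
  one_mem' := char_one (Z1_map_mul κ)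
  mul_mem' := fun {a b} ha hb => by
    simp only [Set.mem_ofPred_eq] at *
    rw [Z1_map_mul, ha, hb, add_zero]
  inv_mem' := fun {a} ha => by
    simp only [Set.mem_ofPred_eq] at *
    rw [char_inv (Z1_map_mul κ), ha, neg_zero]

lemma mem_kerZ1 (κ : Z1 𝓛 (triv p G)) (g : G) : g ∈ kerZ1 κ ↔ (κ : G → ZMod p) g = 0 := Iff.rfl

lemma kerZ1_mem (κ : Z1 𝓛 (triv p G)) : kerZ1 κ ∈ 𝓛 :=
  char_mem κ.2.1 (Z1_map_mul κ) (mem_kerZ1 κ)

lemma exists_eq_one {κ : Z1 𝓛 (triv p G)} (hκ : κ ≠ 0) : ∃ σ, (κ : G → ZMod p) σ = 1 := by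
  obtain ⟨σ, hσ⟩ : ∃ σ, (κ : G → ZMod p) σ ≠ 0 := by
    by_contra h
    push Not at h
    exact hκ (Subtype.ext (funext h))
  refine ⟨σ ^ (((κ : G → ZMod p) σ)⁻¹).val, ?_⟩
  rw [char_pow (Z1_map_mul κ)]
  simp [hσ]

include hζ hG hζG hdiv in
/-- the set of symbols `(κ, ·)` is a line as soon as the norm index is `p`. -/
theorem finrank_range_sym {κ : Z1 𝓛 (triv p G)} {H : Subgroup G}
    (hκH : ∀ g, g ∈ H ↔ (κ : G → ZMod p) g = 0) {σ : G} (hσ : (κ : G → ZMod p) σ = 1)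
    (hidx : ((FU Ω H).map (normHom Ω σ p)).relIndex (FU Ω (⊤ : Subgroup G)) = p) :
    finrank (ZMod p) (LinearMap.range (sym 𝓛 p κ)) = 1 := by
  let ψ : FU Ω (⊤ : Subgroup G) →* Multiplicative (H2 𝓛 (triv p G)) :=
    (AddMonoidHom.toMultiplicative (sym 𝓛 p κ).toAddMonoidHom).comp (kumV hζ hG hζG hdiv)
  have hker : ψ.ker = ((FU Ω H).map (normHom Ω σ p)).subgroupOf (FU Ω ⊤) := by
    ext x
    rw [MonoidHom.mem_ker, Subgroup.mem_subgroupOf, ← sym_kumV_eq_zero_iff hζ hG hζG hdiv hκH hσ]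
    exact Iff.rfl
  have h1 : Nat.card ψ.range = p := by
    rw [← Subgroup.index_ker, hker]; exact hidx
  have h2 : Nat.card (LinearMap.range (sym 𝓛 p κ)) = p := by
    refine Eq.trans ?_ h1
    refine Nat.card_congr ((Multiplicative.ofAdd).subtypeEquiv fun a => ?_)
    constructor
    · rintro ⟨lam, rfl⟩
      obtain ⟨x, hx⟩ := kumV_surjective (𝓛 := 𝓛) hζ hG hζG hdiv (Multiplicative.ofAdd lam)
      refine ⟨x, ?_⟩
      change Multiplicative.ofAdd (sym 𝓛 p κ (kumV hζ hG hζG hdiv x).toAdd) = _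
      rw [hx]; rfl
    · rintro ⟨x, hx⟩
      exact ⟨(kumV hζ hG hζG hdiv x).toAdd, Multiplicative.ofAdd.injective hx⟩
  have : Finite (LinearMap.range (sym 𝓛 p κ)) := Nat.finite_of_card_ne_zero (by
    rw [h2]; exact (Fact.out : p.Prime).ne_zero)
  have h3 := Module.natCard_eq_pow_finrank (K := ZMod p) (V := LinearMap.range (sym 𝓛 p κ))
  rw [h2, Nat.card_zmod] at h3
  have h4 : p ^ 1 = p ^ finrank (ZMod p) (LinearMap.range (sym 𝓛 p κ)) := by rw [pow_one]; exact h3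
  exact (Nat.pow_right_injective (Fact.out : p.Prime).two_le h4).symm

end Symbols


section LocalCount

variable {G : Type} [Group G]
variable {l : ℕ} [Fact l.Prime] {𝓛 : Levels G} {Ω : Type} [Field Ω] [MulSemiringAction G Ω]
  [Algebra ℚ_[l] Ω] [IsGalois ℚ_[l] Ω]

/-- the fixed field of `G` as a finite extension of `ℚ_[l]` -/
lemma LocGal.exists_field (h : LocGal l 𝓛 Ω) : ∃ K : IntermediateField ℚ_[l] Ω,
    FiniteDimensional ℚ_[l] K ∧ ∀ x : Ω, x ∈ K ↔ ∀ g : G, g • x = x := by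
  obtain ⟨φ, hφ, hr⟩ := h.exists_hom
  refine ⟨IntermediateField.fixedField φ.range, finiteDimensional_fixedField hr, fun x => ?_⟩
  constructor
  · intro hx g
    rw [← hφ]; exact hx ⟨φ g, ⟨g, rfl⟩⟩
  · rintro hx ⟨_, ⟨g, rfl⟩⟩
    exact (hφ g x).trans (hx g)

/-- units of the fixed field -/
noncomputable def unitsEquivFU {K : IntermediateField ℚ_[l] Ω}
    (hK : ∀ x : Ω, x ∈ K ↔ ∀ g : G, g • x = x) : (K)ˣ ≃* FU Ω (⊤ : Subgroup G) :=
  MulEquiv.ofBijective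
    ((Units.map (K.val : K →* Ω)).codRestrict (FU Ω (⊤ : Subgroup G))
      (fun u g _ => (hK _).1 (u : K).2 g)) (by
    constructor
    · intro x y hxy
      exact Units.map_injective (f := (K.val : K →* Ω)) Subtype.val_injective (congrArg Subtype.val hxy)
    · rintro ⟨x, hx⟩
      have h1 : (x : Ω) ∈ K := (hK _).2 fun g => hx g trivial
      have h2 : ((x⁻¹ : Ωˣ) : Ω) ∈ K := (hK _).2 fun g => (inv_mem hx : x⁻¹ ∈ FU Ω ⊤) g trivial
      exact ⟨⟨⟨x, h1⟩, ⟨_, h2⟩, Subtype.ext (by simp), Subtype.ext (by simp)⟩,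
        Subtype.ext (Units.ext rfl)⟩)

lemma index_range_pow_congr {A B : Type*} [CommGroup A] [CommGroup B] (e : A ≃* B) (p : ℕ) :
    (powMonoidHom p : A →* A).range.index = (powMonoidHom p : B →* B).range.index := by
  rw [← Subgroup.index_map_equiv _ e]
  congr 1
  ext x
  constructor
  · rintro ⟨_, ⟨y, rfl⟩, rfl⟩
    exact ⟨e y, by simp⟩
  · rintro ⟨y, rfl⟩
    exact ⟨(e.symm y) ^ p, ⟨e.symm y, rfl⟩, by simp⟩

lemma card_ker_pow_of_primitiveRoot {F : Type*} [Field F] {p : ℕ} [NeZero p] {ζ : F}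
    (hζ : IsPrimitiveRoot ζ p) : Nat.card (powMonoidHom p : Fˣ →* Fˣ).ker = p := by
  have h1 : (powMonoidHom p : Fˣ →* Fˣ).ker = rootsOfUnity p F := by
    ext x; simp [mem_rootsOfUnity]
  rw [h1]
  exact hζ.card_rootsOfUnity

variable {p : ℕ} [Fact p.Prime] {ζ : Ω}

/-- the number of characters of order dividing `p` -/
theorem LocGal.card_Z1 (h : LocGal l 𝓛 Ω) (hζ : IsPrimitiveRoot ζ p) (hζG : ∀ g : G, g • ζ = ζ)
    (hdiv : ∀ w : Ω, w ≠ 0 → ∃ v : Ω, v ^ p = w)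
    {K : IntermediateField ℚ_[l] Ω} [FiniteDimensional ℚ_[l] K]
    (hK : ∀ x : Ω, x ∈ K ↔ ∀ g : G, g • x = x) :
    Nat.card (Z1 𝓛 (triv p G)) = p * (if p = l then p ^ finrank ℚ_[l] K else 1) * p := by
  have hζK : IsPrimitiveRoot (⟨ζ, (hK ζ).2 hζG⟩ : K) p :=
    IsPrimitiveRoot.of_map_of_injective (f := K.val) (by exact hζ) Subtype.val_injective
  have h1 := index_range_pow l K (Fact.out : p.Prime)
  rw [card_ker_pow_of_primitiveRoot hζK, index_range_pow_congr (unitsEquivFU hK)] at h1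
  rw [← h1]
  let f := kumV (𝓛 := 𝓛) hζ h.isGal hζG hdiv
  have hker : f.ker = (powMonoidHom p : FU Ω (⊤ : Subgroup G) →* FU Ω (⊤ : Subgroup G)).range := by
    ext x
    rw [MonoidHom.mem_ker, kumV_eq_one_iff]
    exact Iff.rfl
  rw [← hker, Subgroup.index_ker, MonoidHom.range_eq_top.2 (kumV_surjective hζ h.isGal hζG hdiv),
    Subgroup.card_top]
  rfl

theorem LocGal.finite_Z1 (h : LocGal l 𝓛 Ω) (hζ : IsPrimitiveRoot ζ p) (hζG : ∀ g : G, g • ζ = ζ)
    (hdiv : ∀ w : Ω, w ≠ 0 → ∃ v : Ω, v ^ p = w) : Finite (Z1 𝓛 (triv p G)) := by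
  obtain ⟨K, hKf, hK⟩ := h.exists_field
  apply Nat.finite_of_card_ne_zero
  rw [h.card_Z1 hζ hζG hdiv hK]
  have := (Fact.out : p.Prime).pos
  split_ifs <;> positivity

/-- dimension of the space of characters -/
theorem LocGal.finrank_Z1 (h : LocGal l 𝓛 Ω) (hζ : IsPrimitiveRoot ζ p) (hζG : ∀ g : G, g • ζ = ζ)
    (hdiv : ∀ w : Ω, w ≠ 0 → ∃ v : Ω, v ^ p = w)
    {K : IntermediateField ℚ_[l] Ω} [FiniteDimensional ℚ_[l] K]
    (hK : ∀ x : Ω, x ∈ K ↔ ∀ g : G, g • x = x) :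
    finrank (ZMod p) (Z1 𝓛 (triv p G)) = 2 + (if p = l then finrank ℚ_[l] K else 0) := by
  have := h.finite_Z1 hζ hζG hdiv
  have h1 := h.card_Z1 hζ hζG hdiv hK
  rw [Module.natCard_eq_pow_finrank (K := ZMod p) (V := Z1 𝓛 (triv p G)), Nat.card_zmod] at h1
  have h2 : p * (if p = l then p ^ finrank ℚ_[l] K else 1) * p =
      p ^ (2 + (if p = l then finrank ℚ_[l] K else 0)) := by
    split_ifs
    · ring
    · ring
  rw [h2] at h1
  exact Nat.pow_right_injective (Fact.out : p.Prime).two_le h1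

/-- there is a character not proportional to a given one -/
theorem LocGal.exists_notMem_span (h : LocGal l 𝓛 Ω) (hζ : IsPrimitiveRoot ζ p)
    (hζG : ∀ g : G, g • ζ = ζ) (hdiv : ∀ w : Ω, w ≠ 0 → ∃ v : Ω, v ^ p = w)
    (κ : Z1 𝓛 (triv p G)) : ∃ lam, lam ∉ Submodule.span (ZMod p) {κ} := by
  obtain ⟨K, hKf, hK⟩ := h.exists_field
  have := h.finite_Z1 hζ hζG hdiv
  by_contra hcon
  push Not at hcon
  have h1 : Submodule.span (ZMod p) {κ} = ⊤ := eq_top_iff.2 fun x _ => hcon x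
  have h2 := finrank_span_le_card (R := ZMod p) ({κ} : Set (Z1 𝓛 (triv p G)))
  rw [h1, finrank_top, h.finrank_Z1 hζ hζG hdiv hK] at h2
  simp at h2
  omega

end LocalCount

end Fermat.Agent.LocalF
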